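/-
S20, component (B): combinatorics of the coset space `SL(2,ℤ) ⧸ Γ₀(N)`.
Pure finite mathematics; independent of all the analysis.  See the S20 blueprint note.
Route: `gΓ₀(N) ↦ [first column of g mod N] ∈ P¹(ℤ/N)` is a bijection, equivariant for left
multiplication (`Cosets/P1.lean`, `Cosets/Action.lean`); the counts are in `Cosets/Count.lean`,
`Cosets/Fixed.lean`, `Cosets/Cusps.lean`.
-/
import Mathlib.NumberTheory.ModularForms.CongruenceSubgroups
import Mathlib.NumberTheory.ModularForms.Basic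
import Fermat.Prelude.Def_ModularCurve_GenusNumerics
import Fermat.Agent.S20.Cosets.Count
import Fermat.Agent.S20.Cosets.Fixed
import Fermat.Agent.S20.Cosets.Cusps

set_option autoImplicit false

namespace Fermat.Agent.S20

open scoped MatrixGroups
open CongruenceSubgroup

/-- The coset space `X = SL(2,ℤ)/Γ₀(N)` (left cosets), with `SL(2,ℤ)` acting by left multiplication. -/
abbrev CosetX (N : ℕ) : Type := SL(2, ℤ) ⧸ Gamma0 N

/-- `|SL(2,ℤ)/Γ₀(N)| = ψ(N)`. -/
theorem card_cosetX (N : ℕ) [NeZero N] : Nat.card (CosetX N) = ModularCurve.dedekindPsi N :=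
  card_cosetX_aux N

/-- The number of fixed points of `S` on `SL(2,ℤ)/Γ₀(N)` is `ν₂(N) = #{x mod N : x² + 1 = 0}`. -/
theorem card_fixedBy_S (N : ℕ) [NeZero N] :
    Nat.card (MulAction.fixedBy (CosetX N) ModularGroup.S) = ModularCurve.nuTwo N :=
  card_fixedBy_S_aux N

/-- The number of fixed points of `S * T` on `SL(2,ℤ)/Γ₀(N)` is `ν₃(N) = #{x mod N : x² + x + 1 = 0}`. -/
theorem card_fixedBy_ST (N : ℕ) [NeZero N] :
    Nat.card (MulAction.fixedBy (CosetX N) (ModularGroup.S * ModularGroup.T)) =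
      ModularCurve.nuThree N :=
  card_fixedBy_ST_aux N

/-- The number of orbits of `T` on `SL(2,ℤ)/Γ₀(N)` (= number of cusps of `Γ₀(N)`) is
`∑_{d ∣ N} φ(gcd(d, N/d))`. -/
theorem card_orbits_T (N : ℕ) [NeZero N] :
    Nat.card (MulAction.orbitRel.Quotient (Subgroup.zpowers ModularGroup.T) (CosetX N)) =
      ModularCurve.cuspCount N :=
  card_orbits_T_aux N

end Fermat.Agent.S20
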