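/-
S20 core: basic API for unbundled modular forms and their translates.
-/
import Fermat.Agent.S20.Defs

set_option autoImplicit false
set_option linter.unusedSectionVars false

namespace Fermat.Agent.S20

open UpperHalfPlane ModularForm CongruenceSubgroup
open scoped MatrixGroups ModularForm Manifold

variable {N : ℕ} [NeZero N] {k l : ℤ} {f g : ℍ → ℂ}

lemma isMF_iff_exists : IsMF N k f ↔ ∃ F : ModularForm (Gamma0 N) k, ⇑F = f :=
  ⟨fun h => ⟨h.toMF, rfl⟩, fun ⟨F, hF⟩ => hF ▸ isMF_coe F⟩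

lemma isCF_iff_exists : IsCF N k f ↔ ∃ F : CuspForm (Gamma0 N) k, ⇑F = f :=
  ⟨fun h => ⟨h.toCF, rfl⟩, fun ⟨F, hF⟩ => hF ▸ isCF_coe F⟩

lemma IsMF.zero : IsMF N k (0 : ℍ → ℂ) := isMF_coe (0 : ModularForm (Gamma0 N) k)

lemma IsMF.add (hf : IsMF N k f) (hg : IsMF N k g) : IsMF N k (f + g) :=
  isMF_coe (hf.toMF + hg.toMF)

lemma IsMF.neg (hf : IsMF N k f) : IsMF N k (-f) := isMF_coe (-hf.toMF)

lemma IsMF.sub (hf : IsMF N k f) (hg : IsMF N k g) : IsMF N k (f - g) :=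
  isMF_coe (hf.toMF - hg.toMF)

lemma IsMF.smul (c : ℂ) (hf : IsMF N k f) : IsMF N k (c • f) := isMF_coe (c • hf.toMF)

lemma IsMF.mul (hf : IsMF N k f) (hg : IsMF N l g) : IsMF N (k + l) (f * g) :=
  isMF_coe (hf.toMF.mul hg.toMF)

lemma IsMF.sum {ι : Type*} (s : Finset ι) {F : ι → ℍ → ℂ} (h : ∀ i ∈ s, IsMF N k (F i)) :
    IsMF N k (∑ i ∈ s, F i) := by
  classical
  induction s using Finset.induction_on with
  | empty => simpa using IsMF.zero
  | insert a s ha ih =>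
    rw [Finset.sum_insert ha]
    exact (h a (Finset.mem_insert_self a s)).add
      (ih fun i hi => h i (Finset.mem_insert_of_mem hi))

lemma IsMF.const (c : ℂ) : IsMF N 0 (fun _ => c) :=
  isMF_coe (ModularForm.const c)

lemma IsMF.cast {k' : ℤ} (h : k = k') (hf : IsMF N k f) : IsMF N k' f := h ▸ hf

lemma mem_Gamma0_one (γ : SL(2, ℤ)) : γ ∈ Gamma0 1 := by
  rw [Gamma0_mem]
  exact Subsingleton.elim _ _

/-- level one forms are forms of any level -/
lemma IsMF.of_one (hf : IsMF 1 k f) : IsMF N k f :=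
  ⟨hf.holo, fun γ _ => hf.slash γ (mem_Gamma0_one γ), hf.bdd⟩

lemma IsMF.slash_one (hf : IsMF 1 k f) (γ : SL(2, ℤ)) : f ∣[k] γ = f :=
  hf.slash γ (mem_Gamma0_one γ)

lemma isMF_one_coe (F : ModularForm 𝒮ℒ k) : IsMF 1 k F where
  holo := F.holo'
  slash γ _ := SlashInvariantForm.slash_action_eqn F _ ⟨γ, rfl⟩
  bdd γ := ModularFormClass.bdd_at_infty_slash F γ

/-- bundle a level one form as a Mathlib level one form -/
noncomputable def IsMF.toMF1 (h : IsMF 1 k f) : ModularForm 𝒮ℒ k where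
  toFun := f
  slash_action_eq' := by
    rintro _ ⟨γ, rfl⟩
    exact h.slash_one γ
  holo' := h.holo
  bdd_at_cusps' {c} hc := by
    rw [OnePoint.isBoundedAt_iff_forall_SL2Z hc]
    exact fun γ _ => h.bdd γ

@[simp] lemma IsMF.coe_toMF1 (h : IsMF 1 k f) : ⇑h.toMF1 = f := rfl

lemma IsMF.eq_zero_of_neg (hf : IsMF N k f) (hk : k < 0) : f = 0 := by
  have := ModularForm.isZero_of_neg_weight hk hf.toMF
  simpa using congrArg (fun F : ModularForm (Gamma0 N) k => (⇑F : ℍ → ℂ)) this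

lemma IsMF.eq_const_of_zero (hf : IsMF N 0 f) : ∃ c : ℂ, f = fun _ => c := by
  obtain ⟨c, hc⟩ := ModularForm.eq_const_of_weight_zero hf.toMF
  exact ⟨c, by ext z; simpa using congrFun hc z⟩


/-! ### Translates -/

/-- The translate of `f` attached to the coset `x = gΓ₀(N)`: `f ∣[k] g⁻¹` (for the chosen representative `g`). -/
noncomputable def tr (N : ℕ) (k : ℤ) (f : ℍ → ℂ) (x : SL(2, ℤ) ⧸ Gamma0 N) : ℍ → ℂ :=
  f ∣[k] (Quotient.out x)⁻¹

omit [NeZero N] in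
lemma IsMF.tr_mk (hf : IsMF N k f) (g : SL(2, ℤ)) :
    tr N k f (QuotientGroup.mk g) = f ∣[k] g⁻¹ := by
  unfold tr
  have h : (Quotient.out (QuotientGroup.mk g : SL(2, ℤ) ⧸ Gamma0 N))⁻¹ * g ∈ Gamma0 N := by
    rw [← QuotientGroup.eq]
    exact Quotient.out_eq _
  have h2 := hf.slash _ h
  rw [SlashAction.slash_mul] at h2
  have h3 := congrArg (fun F => F ∣[k] g⁻¹) h2
  simp only [← SlashAction.slash_mul] at h3
  rwa [mul_assoc, mul_inv_cancel, mul_one] at h3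

omit [NeZero N] in
lemma IsMF.tr_slash (hf : IsMF N k f) (x : SL(2, ℤ) ⧸ Gamma0 N) (g : SL(2, ℤ)) :
    (tr N k f x) ∣[k] g = tr N k f (g⁻¹ • x) := by
  induction x using QuotientGroup.induction_on with
  | H a =>
    rw [hf.tr_mk]
    have : g⁻¹ • (QuotientGroup.mk a : SL(2, ℤ) ⧸ Gamma0 N) = QuotientGroup.mk (g⁻¹ * a) := rfl
    rw [this, hf.tr_mk, ← SlashAction.slash_mul, mul_inv_rev, inv_inv]

omit [NeZero N] in
lemma IsMF.tr_one (hf : IsMF N k f) :
    tr N k f (QuotientGroup.mk 1) = f := by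
  rw [hf.tr_mk, inv_one, SlashAction.slash_one]

omit [NeZero N] in
lemma IsMF.slash_eq_tr (hf : IsMF N k f) (g : SL(2, ℤ)) :
    f ∣[k] g = tr N k f (QuotientGroup.mk g⁻¹) := by
  rw [hf.tr_mk, inv_inv]

omit [NeZero N] in
lemma IsMF.tr_holo (hf : IsMF N k f) (x : SL(2, ℤ) ⧸ Gamma0 N) : MDiff (tr N k f x) := by
  unfold tr
  rw [SL_slash]
  exact hf.holo.slash k _

omit [NeZero N] in
lemma IsMF.tr_bdd (hf : IsMF N k f) (x : SL(2, ℤ) ⧸ Gamma0 N) :
    IsBoundedAtImInfty (tr N k f x) := hf.bdd _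

omit [NeZero N] in
lemma IsCF.tr_zero (hf : IsCF N k f) (x : SL(2, ℤ) ⧸ Gamma0 N) :
    IsZeroAtImInfty (tr N k f x) := hf.zero _

omit [NeZero N] in
lemma tr_add (f g : ℍ → ℂ) (x : SL(2, ℤ) ⧸ Gamma0 N) :
    tr N k (f + g) x = tr N k f x + tr N k g x := by
  unfold tr; exact SlashAction.add_slash _ _ _ _

omit [NeZero N] in
lemma tr_smul (c : ℂ) (f : ℍ → ℂ) (x : SL(2, ℤ) ⧸ Gamma0 N) :
    tr N k (c • f) x = c • tr N k f x := by
  unfold tr; exact ModularForm.SL_smul_slash _ _ _ _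

omit [NeZero N] in
lemma tr_zero (x : SL(2, ℤ) ⧸ Gamma0 N) : tr N k (0 : ℍ → ℂ) x = 0 := by
  unfold tr; exact SlashAction.zero_slash _ _

omit [NeZero N] in
lemma tr_sum {ι : Type*} (s : Finset ι) (F : ι → ℍ → ℂ) (x : SL(2, ℤ) ⧸ Gamma0 N) :
    tr N k (∑ i ∈ s, F i) x = ∑ i ∈ s, tr N k (F i) x := by
  unfold tr; exact SlashAction.sum_slash _ _

omit [NeZero N] in
/-- translate of a product with a level one form -/
lemma tr_mul_of_one {P : ℍ → ℂ} (hP : IsMF 1 k P) (f : ℍ → ℂ) (x : SL(2, ℤ) ⧸ Gamma0 N) :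
    tr N (k + l) (P * f) x = P * tr N l f x := by
  unfold tr
  rw [ModularForm.mul_slash_SL2, hP.slash_one]

omit [NeZero N] in
/-- value of `f` at `g • z` in terms of the slash action -/
lemma slash_apply_eq (f : ℍ → ℂ) (k : ℤ) (g : SL(2, ℤ)) (z : ℍ) :
    f (g • z) = (f ∣[k] g) z * (denom g z) ^ k := by
  rw [ModularForm.SL_slash_apply, mul_assoc, ← zpow_add₀ (denom_ne_zero g z), neg_add_cancel,
    zpow_zero, mul_one]

end Fermat.Agent.S20
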