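/-
S20, component (A2): the `j`-invariant is injective on `SL(2,ℤ) \ ℍ`.
Route: `j(z) = j(w)` gives `l` with `E₄(w) = l⁴ E₄(z)`, `E₆(w) = l⁶ E₆(z)`; then the lattices
`ℤ w + ℤ` and `l⁻¹ (ℤ z + ℤ)` have the same invariants `g₂, g₃`, hence the same Weierstrass
function near `0` (order comparison in the subtracted differential equation), hence everywhere;
comparing the poles the two lattices are equal, which gives the element of `SL(2,ℤ)`.
(helper43; sub-lemmas in `Fermat/Agent/S20/JInjective/`.)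
-/
import Mathlib.NumberTheory.ModularForms.LevelOne.DimensionFormula
import Mathlib.NumberTheory.ModularForms.LevelOne.GradedRing
import Mathlib.Analysis.SpecialFunctions.Elliptic.Weierstrass
import Fermat.Agent.S20.JInjective.Main

set_option autoImplicit false

namespace Fermat.Agent.S20

open UpperHalfPlane ModularForm
open scoped MatrixGroups ModularForm Manifold

theorem exists_smul_eq_of_j_eq (z w : ℍ)
    (h : E₄ z ^ 3 * ModularForm.discriminant w = E₄ w ^ 3 * ModularForm.discriminant z) :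
    ∃ g : SL(2, ℤ), g • z = w := by
  have hz := ModularForm.discriminant_eq_E₄_cube_sub_E₆_sq z
  have hw := ModularForm.discriminant_eq_E₄_cube_sub_E₆_sq w
  have hΔz : E₄ z ^ 3 - E₆ z ^ 2 ≠ 0 := by
    intro h0
    apply ModularForm.discriminant_ne_zero z
    rw [hz, h0, zero_div]
  have hΔw : E₄ w ^ 3 - E₆ w ^ 2 ≠ 0 := by
    intro h0
    apply ModularForm.discriminant_ne_zero w
    rw [hw, h0, zero_div]
  have hrel : E₄ z ^ 3 * E₆ w ^ 2 = E₄ w ^ 3 * E₆ z ^ 2 := by
    rw [hz, hw] at h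
    linear_combination (-1728 : ℂ) * h
  obtain ⟨l, hl0, hl4, hl6⟩ := jinj_exists_scaling (E₄ z) (E₆ z) (E₄ w) (E₆ w) hΔz hΔw hrel
  have hc : l⁻¹ ≠ 0 := inv_ne_zero hl0
  apply jinj_exists_smul_eq_of_lattice_eq z w l⁻¹ hc
  apply lattice_eq_of_g₂_g₃
  · rw [jPeriodPair_g₂, jPeriodPair_g₂, hl4]
    simp
  · rw [jPeriodPair_g₃, jPeriodPair_g₃, hl6]
    simp

end Fermat.Agent.S20
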