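/-
S20, component (D1): the division lemma.  See the S20 blueprint note.
If `φ` (level one) has only simple zeros, tends to a nonzero constant at `i∞`, and `f` (level `Γ₀(N)`)
vanishes at every zero of `φ`, then `f / φ` extends to a modular form of weight `k - l`.
(`h` is NOT the Lean function `f / φ` at the zeros of `φ`: use the holomorphic extension there.)
-/
import Fermat.Agent.S20.Basics
import Mathlib.Analysis.Complex.RemovableSingularity

set_option autoImplicit false

namespace Fermat.Agent.S20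

open UpperHalfPlane ModularForm CongruenceSubgroup Filter Topology
open scoped MatrixGroups ModularForm Manifold

/-- The holomorphic extension of `F / Φ` across simple zeros of `Φ` at which `F` vanishes. -/
noncomputable def divFun (F Φ : ℂ → ℂ) (z : ℂ) : ℂ :=
  if Φ z = 0 then deriv F z / deriv Φ z else F z / Φ z

lemma divFun_of_ne {F Φ : ℂ → ℂ} {z : ℂ} (h : Φ z ≠ 0) : divFun F Φ z = F z / Φ z := by
  simp [divFun, h]

lemma divFun_of_eq {F Φ : ℂ → ℂ} {z : ℂ} (h : Φ z = 0) :
    divFun F Φ z = deriv F z / deriv Φ z := by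
  simp [divFun, h]

lemma divFun_mul_eq {F Φ : ℂ → ℂ} {z : ℂ} (h : Φ z = 0 → F z = 0) :
    Φ z * divFun F Φ z = F z := by
  by_cases hz : Φ z = 0
  · rw [hz, zero_mul, h hz]
  · rw [divFun_of_ne hz, mul_div_cancel₀ _ hz]

lemma divFun_eventuallyEq_of_zero {F Φ : ℂ → ℂ} {z0 : ℂ}
    (hΦ : DifferentiableAt ℂ Φ z0)
    (hΦ0 : Φ z0 = 0) (hΦ' : deriv Φ z0 ≠ 0) (hF0 : F z0 = 0) :
    divFun F Φ =ᶠ[𝓝 z0] fun z => dslope F z0 z / dslope Φ z0 z := by
  have hcont : ContinuousAt (dslope Φ z0) z0 := continuousAt_dslope_same.2 hΦ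
  have hne : ∀ᶠ z in 𝓝 z0, dslope Φ z0 z ≠ 0 := by
    apply hcont.eventually_ne
    rwa [dslope_same]
  filter_upwards [hne] with z hz
  by_cases hzz : z = z0
  · subst hzz
    rw [divFun_of_eq hΦ0, dslope_same, dslope_same]
  · have h1 : Φ z = (z - z0) * dslope Φ z0 z := by
      have := sub_smul_dslope Φ z0 z
      rw [hΦ0, sub_zero, smul_eq_mul] at this
      exact this.symm
    have h2 : F z = (z - z0) * dslope F z0 z := by
      have := sub_smul_dslope F z0 z
      rw [hF0, sub_zero, smul_eq_mul] at this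
      exact this.symm
    have hsub : z - z0 ≠ 0 := sub_ne_zero.2 hzz
    have hΦz : Φ z ≠ 0 := by
      rw [h1]
      exact mul_ne_zero hsub hz
    rw [divFun_of_ne hΦz, h1, h2, mul_div_mul_left _ _ hsub]

lemma eventually_ne_of_simple_zero {Φ : ℂ → ℂ} {z0 : ℂ}
    (hΦ : DifferentiableAt ℂ Φ z0) (hΦ0 : Φ z0 = 0) (hΦ' : deriv Φ z0 ≠ 0) :
    ∀ᶠ z in 𝓝[≠] z0, Φ z ≠ 0 := by
  have hcont : ContinuousAt (dslope Φ z0) z0 := continuousAt_dslope_same.2 hΦ
  have hne : ∀ᶠ z in 𝓝 z0, dslope Φ z0 z ≠ 0 := by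
    apply hcont.eventually_ne
    rwa [dslope_same]
  filter_upwards [hne.filter_mono nhdsWithin_le_nhds, self_mem_nhdsWithin] with z hz hzz
  have h1 : Φ z = (z - z0) * dslope Φ z0 z := by
    have := sub_smul_dslope Φ z0 z
    rw [hΦ0, sub_zero, smul_eq_mul] at this
    exact this.symm
  rw [h1]
  exact mul_ne_zero (sub_ne_zero.2 hzz) hz

lemma differentiableAt_divFun {F Φ : ℂ → ℂ} {U : Set ℂ} (hU : IsOpen U)
    (hF : DifferentiableOn ℂ F U) (hΦ : DifferentiableOn ℂ Φ U)
    (hsimple : ∀ z ∈ U, Φ z = 0 → deriv Φ z ≠ 0) (hzero : ∀ z ∈ U, Φ z = 0 → F z = 0)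
    {z0 : ℂ} (hz0 : z0 ∈ U) : DifferentiableAt ℂ (divFun F Φ) z0 := by
  have hUn : U ∈ 𝓝 z0 := hU.mem_nhds hz0
  have hΦz0 : DifferentiableAt ℂ Φ z0 := hΦ.differentiableAt hUn
  have hFz0 : DifferentiableAt ℂ F z0 := hF.differentiableAt hUn
  by_cases h0 : Φ z0 = 0
  · have hΦ' := hsimple z0 hz0 h0
    have hF0 := hzero z0 hz0 h0
    have hev := divFun_eventuallyEq_of_zero (F := F) hΦz0 h0 hΦ' hF0
    refine DifferentiableAt.congr_of_eventuallyEq ?_ hev
    have d1 : DifferentiableAt ℂ (dslope F z0) z0 :=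
      ((Complex.differentiableOn_dslope hUn).2 hF).differentiableAt hUn
    have d2 : DifferentiableAt ℂ (dslope Φ z0) z0 :=
      ((Complex.differentiableOn_dslope hUn).2 hΦ).differentiableAt hUn
    exact d1.div d2 (by rwa [dslope_same])
  · have hev : divFun F Φ =ᶠ[𝓝 z0] fun z => F z / Φ z := by
      filter_upwards [hΦz0.continuousAt.eventually_ne h0] with z hz
      exact divFun_of_ne hz
    exact DifferentiableAt.congr_of_eventuallyEq (hFz0.div hΦz0 h0) hev

end Fermat.Agent.S20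

namespace Fermat.Agent.S20

open UpperHalfPlane ModularForm CongruenceSubgroup Filter Topology
open scoped MatrixGroups ModularForm Manifold

/-- A holomorphic function on `ℍ` killed by multiplication with a function having only
simple zeros is zero. -/
lemma eq_zero_of_mul_eq_zero_of_simple {φ g : ℍ → ℂ} (hφ : MDiff φ) (hg : MDiff g)
    (hsimple : ∀ z : ℍ, φ z = 0 → deriv (φ ∘ ofComplex) z ≠ 0)
    (hmul : ∀ z : ℍ, φ z * g z = 0) : g = 0 := by
  ext z
  simp only [Pi.zero_apply]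
  by_cases hz : φ z = 0
  · have hU : {w : ℂ | 0 < w.im} ∈ 𝓝 (z : ℂ) := isOpen_upperHalfPlaneSet.mem_nhds z.im_pos
    have hΦd : DifferentiableAt ℂ (φ ∘ ofComplex) z :=
      (UpperHalfPlane.mdifferentiable_iff.1 hφ).differentiableAt hU
    have hGd : DifferentiableAt ℂ (g ∘ ofComplex) z :=
      (UpperHalfPlane.mdifferentiable_iff.1 hg).differentiableAt hU
    have hΦ0 : (φ ∘ ofComplex) z = 0 := by simpa [ofComplex_apply] using hz
    have hne := eventually_ne_of_simple_zero hΦd hΦ0 (hsimple z hz)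
    have hev : ∀ᶠ w in 𝓝[≠] (z : ℂ), (g ∘ ofComplex) w = 0 := by
      filter_upwards [hne, mem_nhdsWithin_of_mem_nhds hU] with w hw hwU
      have := hmul ⟨w, hwU⟩
      have hw' : φ ⟨w, hwU⟩ ≠ 0 := by
        simpa [Function.comp_apply, ofComplex_apply_of_im_pos hwU] using hw
      have hg0 : g ⟨w, hwU⟩ = 0 := by
        rcases mul_eq_zero.1 this with h | h
        · exact absurd h hw'
        · exact h
      simpa [Function.comp_apply, ofComplex_apply_of_im_pos hwU] using hg0
    have h1 : Tendsto (g ∘ ofComplex) (𝓝[≠] (z : ℂ)) (𝓝 ((g ∘ ofComplex) z)) :=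
      hGd.continuousAt.tendsto.mono_left nhdsWithin_le_nhds
    have h2 : Tendsto (g ∘ ofComplex) (𝓝[≠] (z : ℂ)) (𝓝 0) :=
      tendsto_const_nhds.congr' (hev.mono fun w hw => hw.symm)
    have : (𝓝[≠] (z : ℂ)).NeBot := NormedField.nhdsNE_neBot _
    have := tendsto_nhds_unique h1 h2
    simpa [Function.comp_apply, ofComplex_apply] using this
  · rcases mul_eq_zero.1 (hmul z) with h | h
    · exact absurd h hz
    · exact h

theorem exists_isMF_mul_eq {N : ℕ} [NeZero N] {k l : ℤ} {f φ : ℍ → ℂ}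
    (hf : IsMF N k f) (hφ : IsMF 1 l φ) {c : ℂ} (hc : c ≠ 0)
    (hlim : Filter.Tendsto φ atImInfty (nhds c))
    (hsimple : ∀ z : ℍ, φ z = 0 → deriv (φ ∘ ofComplex) z ≠ 0)
    (hzero : ∀ z : ℍ, φ z = 0 → f z = 0) :
    ∃ h : ℍ → ℂ, IsMF N (k - l) h ∧ f = φ * h := by
  have hUo : IsOpen {w : ℂ | 0 < w.im} := isOpen_upperHalfPlaneSet
  have hFd : DifferentiableOn ℂ (f ∘ ofComplex) {w : ℂ | 0 < w.im} := UpperHalfPlane.mdifferentiable_iff.1 hf.holo
  have hΦd : DifferentiableOn ℂ (φ ∘ ofComplex) {w : ℂ | 0 < w.im} := UpperHalfPlane.mdifferentiable_iff.1 hφ.holo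
  have hcoe : ∀ (u : ℍ → ℂ) (w : ℂ) (hw : 0 < w.im), (u ∘ ofComplex) w = u ⟨w, hw⟩ := by
    intro u w hw
    simp [Function.comp_apply, ofComplex_apply_of_im_pos hw]
  let h : ℍ → ℂ := fun z => divFun (f ∘ ofComplex) (φ ∘ ofComplex) z
  have hmul : f = φ * h := by
    ext z
    have h1 := divFun_mul_eq (F := f ∘ ofComplex) (Φ := φ ∘ ofComplex) (z := (z : ℂ))
      (by
        intro h0
        have : φ z = 0 := by simpa [ofComplex_apply] using h0
        simpa [ofComplex_apply] using hzero z this)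
    simp only [Function.comp_apply, ofComplex_apply] at h1
    simp only [Pi.mul_apply, h]
    exact h1.symm
  have hholo : MDiff h := by
    rw [UpperHalfPlane.mdifferentiable_iff]
    intro w hw
    have hd : DifferentiableAt ℂ (divFun (f ∘ ofComplex) (φ ∘ ofComplex)) w := by
      refine differentiableAt_divFun hUo hFd hΦd ?_ ?_ hw
      · intro z hz h0
        have := hsimple ⟨z, hz⟩ (by rw [← hcoe φ z hz]; exact h0)
        exact this
      · intro z hz h0
        rw [hcoe f z hz]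
        exact hzero ⟨z, hz⟩ (by rw [← hcoe φ z hz]; exact h0)
    refine (hd.congr_of_eventuallyEq ?_).differentiableWithinAt
    filter_upwards [hUo.mem_nhds hw] with z hz
    simp [h, Function.comp_apply, ofComplex_apply_of_im_pos hz]
  -- the slash relation `f ∣[k] γ = φ * (h ∣[k - l] γ)` for all `γ`
  have hslash : ∀ γ : SL(2, ℤ), f ∣[k] γ = φ * (h ∣[k - l] γ) := by
    intro γ
    have h1 : f ∣[k] γ = (φ * h) ∣[l + (k - l)] γ := by
      rw [← hmul]
      congr 1
      ring
    rw [h1, mul_slash_SL2, hφ.slash γ (mem_Gamma0_one γ)]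
  refine ⟨h, ⟨hholo, ?_, ?_⟩, hmul⟩
  · intro γ hγ
    have h1 := hslash γ
    rw [hf.slash γ hγ] at h1
    have hdiff : h ∣[k - l] γ - h = 0 := by
      apply eq_zero_of_mul_eq_zero_of_simple hφ.holo ?_ hsimple
      · intro z
        have := congrFun h1 z
        have h2 := congrFun hmul z
        simp only [Pi.mul_apply, Pi.sub_apply] at this h2 ⊢
        rw [mul_sub, ← this, ← h2, sub_self]
      · have : MDiff (h ∣[k - l] (γ : GL (Fin 2) ℝ)) := hholo.slash (k - l) _
        exact this.sub hholo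
    exact sub_eq_zero.1 hdiff
  · intro γ
    have h1 := hslash γ
    have hne : ∀ᶠ z in atImInfty, φ z ≠ 0 := hlim.eventually_ne hc
    have hinv : IsBoundedAtImInfty (fun z => (φ z)⁻¹) := by
      have : Tendsto (fun z => (φ z)⁻¹) atImInfty (𝓝 c⁻¹) := hlim.inv₀ hc
      exact this.isBigO_one ℝ
    have hb : IsBoundedAtImInfty ((f ∣[k] γ) * fun z => (φ z)⁻¹) := (hf.bdd γ).mul hinv
    refine Asymptotics.IsBigO.congr' hb ?_ EventuallyEq.rfl
    filter_upwards [hne] with z hz
    have := congrFun h1 z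
    simp only [Pi.mul_apply] at this ⊢
    rw [this, mul_comm (φ z), mul_assoc, mul_inv_cancel₀ hz, mul_one]

end Fermat.Agent.S20
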