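/-
S20, component (C): the free module theorem.
`M_*(Γ₀(N))` is a free graded module over `M_*(SL(2,ℤ)) = ℂ[E₄, E₆]`.
Construction: for each weight `k` pick a basis of a complement `C_k` of `E₄ M_{k-4} + E₆ M_{k-6}` in `M_k(Γ₀(N))`
(inside the ambient vector space `ℍ → ℂ`); `J := Σ k, (index set of that basis)`.
* generation: induction on the weight (`M_k = 0` for `k < 0`).
* freeness: induction on the weight, using
  (1) level one: for `m ≠ 0` every `P ∈ M_m(SL(2,ℤ))` is `E₄ A + E₆ B` with `A ∈ M_{m-4}`, `B ∈ M_{m-6}`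
      (subtract a multiple of a monomial `E₄^a E₆^b`, the rest is a cusp form `= Δ g = (E₄³ - E₆²) g / 1728`);
      `M_0(SL(2,ℤ))` = constants;
  (2) regular sequence: `E₄ a + E₆ b = 0` with `a ∈ M_{k-4}(Γ₀(N))`, `b ∈ M_{k-6}(Γ₀(N))` implies `b = E₄ h`, `a = -E₆ h`
      with `h ∈ M_{k-10}(Γ₀(N))`  (`h := b / E₄` where `E₄ ≠ 0`, `:= -a / E₆` where `E₆ ≠ 0`; no common zero since `Δ ≠ 0`).
No finiteness of `J` is claimed here (it follows later from the rank bound).
-/
import Fermat.Agent.S20.Defs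
import Fermat.Agent.S20.FreeGens.Free

set_option autoImplicit false

namespace Fermat.Agent.S20

open UpperHalfPlane ModularForm CongruenceSubgroup
open scoped MatrixGroups ModularForm Manifold

theorem exists_free_generators (N : ℕ) [NeZero N] :
    ∃ (J : Type) (κ : J → ℤ) (F : J → ℍ → ℂ),
      (∀ j, IsMF N (κ j) (F j)) ∧
      (∀ (k : ℤ) (f : ℍ → ℂ), IsMF N k f →
        ∃ (s : Finset J) (P : J → ℍ → ℂ), (∀ j ∈ s, IsMF 1 (k - κ j) (P j)) ∧
          f = ∑ j ∈ s, P j * F j) ∧
      (∀ (k : ℤ) (s : Finset J) (P : J → ℍ → ℂ), (∀ j ∈ s, IsMF 1 (k - κ j) (P j)) →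
          ∑ j ∈ s, P j * F j = 0 → ∀ j ∈ s, P j = 0) := by
  classical
  refine ⟨fgJ N, fgκ N, fgF N, fgF_isMF N, ?_, ?_⟩
  · intro k f hf
    obtain ⟨P, hP, hPf⟩ := fg_generation' N k f hf
    refine ⟨P.support, ⇑P, fun j _ => hP j, ?_⟩
    rw [← hPf, fgEv_apply]
    rfl
  · intro k s P hP hsum
    have hsupp : ∀ j, (if j ∈ s then P j else 0) ≠ 0 → j ∈ s := by
      intro j hj
      by_contra hjs
      exact hj (if_neg hjs)
    let Pf : fgJ N →₀ (ℍ → ℂ) := Finsupp.onFinset s (fun j => if j ∈ s then P j else 0) hsupp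
    have hPf : ∀ j, Pf j = if j ∈ s then P j else 0 := fun j => rfl
    have hrep : fgRep N k Pf := by
      intro j
      rw [hPf]
      by_cases hj : j ∈ s
      · rw [if_pos hj]
        exact hP j hj
      · rw [if_neg hj]
        exact fg_isMF_zero _ _
    have hev : fgEv N Pf = 0 := by
      have h1 : (Pf.sum fun j p => p * fgF N j)
          = ∑ j ∈ s, (if j ∈ s then P j else 0) * fgF N j :=
        Finsupp.onFinset_sum (g := fun j p => p * fgF N j) hsupp (fun j => zero_mul _)
      rw [fgEv_apply, h1, ← hsum]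
      refine Finset.sum_congr rfl fun j hj => ?_
      rw [if_pos hj]
    have h0 := fg_freeness' N k Pf hrep hev
    intro j hj
    have := hPf j
    rw [if_pos hj, h0] at this
    exact this.symm

end Fermat.Agent.S20
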