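/-
S20 core (G0, G1): free generators, evaluation vectors, the key step.
Each `sorry` is an open lemma; proof sketches are in the comments (see also the S20 blueprint note).
Notation: `X = CosetX N = SL(2,ℤ) ⧸ Γ₀(N)`, `n = |X|`, `tr N k f x` = translate of `f` (Basics.lean),
`(tr N k f x) ∣[k] g = tr N k f (g⁻¹ • x)` (`IsMF.tr_slash`).
-/
import Fermat.Agent.S20.LevelOne
import Fermat.Agent.S20.FreeGens
import Fermat.Agent.S20.Cosets

set_option autoImplicit false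
set_option linter.unusedSectionVars false

namespace Fermat.Agent.S20

open UpperHalfPlane hiding I
open ModularForm CongruenceSubgroup Filter Topology Complex
open scoped MatrixGroups ModularForm Manifold Real

local notation "Δ" => ModularForm.discriminant

/-- A system of free generators of `M_*(Γ₀(N))` over `M_*(SL(2,ℤ))`. -/
structure Gens (N : ℕ) where
  J : Type
  κ : J → ℤ
  F : J → ℍ → ℂ
  isMF : ∀ j, IsMF N (κ j) (F j)
  gen : ∀ (k : ℤ) (f : ℍ → ℂ), IsMF N k f →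
    ∃ (s : Finset J) (P : J → ℍ → ℂ), (∀ j ∈ s, IsMF 1 (k - κ j) (P j)) ∧
      f = ∑ j ∈ s, P j * F j
  free : ∀ (k : ℤ) (s : Finset J) (P : J → ℍ → ℂ), (∀ j ∈ s, IsMF 1 (k - κ j) (P j)) →
    ∑ j ∈ s, P j * F j = 0 → ∀ j ∈ s, P j = 0

theorem nonempty_gens (N : ℕ) [NeZero N] : Nonempty (Gens N) := by
  obtain ⟨J, κ, F, h1, h2, h3⟩ := exists_free_generators N
  exact ⟨⟨J, κ, F, h1, h2, h3⟩⟩

namespace Gens

variable {N : ℕ} [NeZero N] (𝔊 : Gens N)

/-- the vector `(F_{j,x}(z))_{x ∈ X}` of values at `z` of the translates of the generator `F j`. -/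
noncomputable def vec (j : 𝔊.J) (z : ℍ) : CosetX N → ℂ :=
  fun x => tr N (𝔊.κ j) (𝔊.F j) x z

/-! ### (G0) basic consequences of freeness -/

/-- freeness with `s = {j}`, `P j = 1`. -/
lemma F_ne_zero (j : 𝔊.J) : 𝔊.F j ≠ 0 := by
  classical
  intro h0
  have hP : ∀ i ∈ ({j} : Finset 𝔊.J), IsMF 1 (𝔊.κ j - 𝔊.κ i) ((fun _ => fun _ => (1 : ℂ)) i) := by
    intro i hi
    rw [Finset.mem_singleton] at hi
    subst hi
    exact (IsMF.const (1 : ℂ)).cast (sub_self _).symm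
  have hsum : ∑ i ∈ ({j} : Finset 𝔊.J), ((fun _ => fun _ => (1 : ℂ)) i : ℍ → ℂ) * 𝔊.F i = 0 := by
    rw [Finset.sum_singleton, h0, mul_zero]
  have := 𝔊.free (𝔊.κ j) {j} (fun _ => fun _ => (1 : ℂ)) hP hsum j (Finset.mem_singleton_self j)
  have h1 := congrFun this UpperHalfPlane.I
  simp at h1

lemma κ_nonneg (j : 𝔊.J) : 0 ≤ 𝔊.κ j := by
  by_contra h
  exact 𝔊.F_ne_zero j ((𝔊.isMF j).eq_zero_of_neg (not_le.mp h))

lemma κ_even (j : 𝔊.J) : Even (𝔊.κ j) := by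
  by_contra h
  exact 𝔊.F_ne_zero j ((𝔊.isMF j).eq_zero_of_odd (Int.not_even_iff_odd.mp h))

/-- exactly one generator has weight `0` (`M_0(Γ₀(N)) = ℂ`; generation applied to `f = 1`; freeness). -/
lemma card_weight_zero : Nat.card {j : 𝔊.J // 𝔊.κ j = 0} = 1 := by
  classical
  rw [Nat.card_eq_one_iff_unique]
  constructor
  · -- uniqueness
    constructor
    rintro ⟨j₁, h₁⟩ ⟨j₂, h₂⟩
    by_contra hne
    have hne' : j₁ ≠ j₂ := fun e => hne (Subtype.ext e)
    obtain ⟨c₁, hc₁⟩ := ((𝔊.isMF j₁).cast h₁).eq_const_of_zero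
    obtain ⟨c₂, hc₂⟩ := ((𝔊.isMF j₂).cast h₂).eq_const_of_zero
    have hc₁0 : c₁ ≠ 0 := by
      rintro rfl
      exact 𝔊.F_ne_zero j₁ (by rw [hc₁]; rfl)
    let P : 𝔊.J → ℍ → ℂ := fun i => if i = j₁ then (fun _ => c₂) else (fun _ => -c₁)
    have hP : ∀ i ∈ ({j₁, j₂} : Finset 𝔊.J), IsMF 1 (0 - 𝔊.κ i) (P i) := by
      intro i hi
      rw [Finset.mem_insert, Finset.mem_singleton] at hi
      rcases hi with rfl | rfl
      · simp only [P, if_true]
        exact (IsMF.const c₂).cast (by rw [h₁, sub_zero])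
      · simp only [P, if_neg (Ne.symm hne')]
        exact (IsMF.const (-c₁)).cast (by rw [h₂, sub_zero])
    have hsum : ∑ i ∈ ({j₁, j₂} : Finset 𝔊.J), P i * 𝔊.F i = 0 := by
      rw [Finset.sum_pair hne']
      simp only [P, if_true, if_neg (Ne.symm hne')]
      rw [hc₁, hc₂]
      funext z
      simp only [Pi.add_apply, Pi.mul_apply, Pi.zero_apply]
      ring
    have := 𝔊.free 0 {j₁, j₂} P hP hsum j₂ (by simp)
    simp only [P, if_neg (Ne.symm hne')] at this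
    have h1 := congrFun this UpperHalfPlane.I
    simp only [Pi.zero_apply, neg_eq_zero] at h1
    exact hc₁0 h1
  · -- existence
    obtain ⟨s, P, hP, hsum⟩ := 𝔊.gen 0 (fun _ => (1 : ℂ)) (IsMF.const 1)
    by_contra hemp
    rw [not_nonempty_iff] at hemp
    have hzero : ∀ j ∈ s, P j * 𝔊.F j = 0 := by
      intro j hj
      have hκ : 0 < 𝔊.κ j := by
        rcases (𝔊.κ_nonneg j).lt_or_eq with h | h
        · exact h
        · exact (hemp.false ⟨j, h.symm⟩).elim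
      rw [(hP j hj).eq_zero_of_neg (by linarith), zero_mul]
    rw [Finset.sum_eq_zero hzero] at hsum
    have h1 := congrFun hsum UpperHalfPlane.I
    simp at h1

/-- behaviour of `vec` under `SL(2,ℤ)` (from `slash_apply_eq` and `IsMF.tr_slash`). -/
lemma vec_smul (j : 𝔊.J) (g : SL(2, ℤ)) (z : ℍ) (x : CosetX N) :
    𝔊.vec j (g • z) x = (denom g z) ^ (𝔊.κ j) * 𝔊.vec j z (g⁻¹ • x) := by
  unfold vec
  rw [slash_apply_eq (tr N (𝔊.κ j) (𝔊.F j) x) (𝔊.κ j) g z, (𝔊.isMF j).tr_slash, mul_comm]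

/-! ### (G1) the key step
If `∑_{j ∈ s} c_j G_j F_j = φ h` with `G_j, φ` of level one and `h` of level `N`, then `c_j G_j = φ Q_j` with
`Q_j` of level one.  (Write `h = ∑_{j ∈ s'} Q_j F_j` by `gen`, and apply `free` on `s ∪ s'`.) -/
lemma exists_eq_mul_of_sum_eq_mul (K l : ℤ) (s : Finset 𝔊.J) (c : 𝔊.J → ℂ) (G : 𝔊.J → ℍ → ℂ)
    (hG : ∀ j ∈ s, IsMF 1 (K - 𝔊.κ j) (G j)) (φ h : ℍ → ℂ) (hφ : IsMF 1 l φ)
    (hh : IsMF N (K - l) h) (heq : ∑ j ∈ s, c j • (G j * 𝔊.F j) = φ * h) :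
    ∀ j ∈ s, ∃ Q : ℍ → ℂ, IsMF 1 (K - l - 𝔊.κ j) Q ∧ c j • G j = φ * Q := by
  classical
  obtain ⟨s', Q, hQ, hhsum⟩ := 𝔊.gen (K - l) h hh
  let P : 𝔊.J → ℍ → ℂ := fun j =>
    (if j ∈ s then c j • G j else 0) - (if j ∈ s' then φ * Q j else 0)
  have hP : ∀ j ∈ s ∪ s', IsMF 1 (K - 𝔊.κ j) (P j) := by
    intro j _
    refine IsMF.sub ?_ ?_
    · by_cases hj : j ∈ s
      · simp only [if_pos hj]; exact (hG j hj).smul (c j)
      · simp only [if_neg hj]; exact IsMF.zero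
    · by_cases hj : j ∈ s'
      · simp only [if_pos hj]
        exact (hφ.mul (hQ j hj)).cast (by ring)
      · simp only [if_neg hj]; exact IsMF.zero
  have hsum : ∑ j ∈ s ∪ s', P j * 𝔊.F j = 0 := by
    simp only [P, sub_mul, Finset.sum_sub_distrib, ite_mul, zero_mul]
    rw [Finset.sum_ite_mem, Finset.sum_ite_mem, Finset.union_inter_cancel_left,
      Finset.union_inter_cancel_right]
    have e1 : ∑ j ∈ s, c j • G j * 𝔊.F j = φ * h := by
      rw [← heq]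
      exact Finset.sum_congr rfl fun j _ => by rw [smul_mul_assoc]
    have e2 : ∑ j ∈ s', φ * Q j * 𝔊.F j = φ * h := by
      rw [hhsum, Finset.mul_sum]
      exact Finset.sum_congr rfl fun j _ => by rw [mul_assoc]
    rw [e1, e2, sub_self]
  intro j hj
  have h0 := 𝔊.free K (s ∪ s') P hP hsum j (Finset.mem_union_left _ hj)
  simp only [P, if_pos hj] at h0
  by_cases hj' : j ∈ s'
  · refine ⟨Q j, hQ j hj', ?_⟩
    simp only [if_pos hj'] at h0
    exact sub_eq_zero.mp h0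
  · refine ⟨0, IsMF.zero, ?_⟩
    simp only [if_neg hj', sub_zero] at h0
    rw [h0, mul_zero]

end Gens

end Fermat.Agent.S20
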