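/-
S20 core (G2): linear independence of the evaluation vectors at every point of ℍ.
All lemmas of this file are proved (helper69); helper lemmas carry the prefix `H69_`.
Notation: `X = CosetX N = SL(2,ℤ) ⧸ Γ₀(N)`, `n = |X|`, `tr N k f x` = translate of `f` (Basics.lean),
`(tr N k f x) ∣[k] g = tr N k f (g⁻¹ • x)` (`IsMF.tr_slash`).
-/
import Fermat.Agent.S20.Gens
import Fermat.Agent.S20.Division
import Fermat.Agent.S20.PermEigen
import Fermat.Agent.S20.H69.Core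
import Fermat.Agent.S20.H69.LinAlg
import Mathlib.RingTheory.RootsOfUnity.Complex

set_option autoImplicit false
set_option linter.unusedSectionVars false

namespace Fermat.Agent.S20

open UpperHalfPlane hiding I
open ModularForm CongruenceSubgroup Filter Topology Complex
open scoped MatrixGroups ModularForm Manifold Real

local notation "Δ" => ModularForm.discriminant

namespace Gens

variable {N : ℕ} [NeZero N] (𝔊 : Gens N)

/-! ### helper lemmas -/

/-- independence of a class of generators, given monomials and a dividing form. -/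
lemma H69_linearIndependent_class (p : 𝔊.J → Prop) (z₀ : ℍ) (l : ℤ)
    (hmono : ∀ s : Finset 𝔊.J, (∀ j ∈ s, p j) → ∃ (K : ℤ) (G : 𝔊.J → ℍ → ℂ),
      (∀ j ∈ s, IsMF 1 (K - 𝔊.κ j) (G j)) ∧ ∀ j ∈ s, G j z₀ ≠ 0)
    (φ : ℍ → ℂ) (hφ : IsMF 1 l φ) (hφ0 : φ z₀ = 0) {a : ℂ} (ha : a ≠ 0)
    (hlim : Tendsto φ atImInfty (𝓝 a))
    (hsimple : ∀ z : ℍ, φ z = 0 → deriv (φ ∘ ofComplex) z ≠ 0)
    (horbit : ∀ z : ℍ, φ z = 0 → ∃ g : SL(2, ℤ), g • z₀ = z) :
    LinearIndependent ℂ (fun j : {j : 𝔊.J // p j} => 𝔊.vec j.1 z₀) := by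
  classical
  rw [linearIndependent_iff']
  intro s c hrel i hi
  set s' : Finset 𝔊.J := s.map (Function.Embedding.subtype _) with hs'
  set c' : 𝔊.J → ℂ := fun j => if h : p j then c ⟨j, h⟩ else 0 with hc'
  have hps' : ∀ j ∈ s', p j := by
    intro j hj
    rw [hs', Finset.mem_map] at hj
    obtain ⟨a, -, rfl⟩ := hj
    exact a.2
  obtain ⟨K, G, hG, hG0⟩ := hmono s' hps'
  have hrel' : ∑ j ∈ s', c' j • 𝔊.vec j z₀ = 0 := by
    rw [hs', Finset.sum_map, ← hrel]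
    refine Finset.sum_congr rfl fun a _ => ?_
    simp only [Function.Embedding.coe_subtype, hc', a.2, dite_true]
  have h := H69_coeff_eq_zero 𝔊 z₀ K l s' c' G hG hG0 φ hφ hφ0 ha hlim hsimple horbit hrel' i.1
    (by rw [hs', Finset.mem_map]; exact ⟨i, hi, rfl⟩)
  simpa only [hc', i.2, dite_true] using h

/-- a weight `K` above all `κ j + 4`, `j ∈ s`, even. -/
lemma H69_exists_large_even (s : Finset 𝔊.J) :
    ∃ K : ℤ, Even K ∧ ∀ j ∈ s, 𝔊.κ j + 4 ≤ K := by
  classical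
  refine ⟨2 * (∑ j ∈ s, 𝔊.κ j) + 4, ⟨∑ j ∈ s, 𝔊.κ j + 2, by ring⟩, fun j hj => ?_⟩
  have h1 : 𝔊.κ j ≤ ∑ i ∈ s, 𝔊.κ i :=
    Finset.single_le_sum (f := fun i => 𝔊.κ i) (fun i _ => 𝔊.κ_nonneg i) hj
  have h2 : 0 ≤ ∑ i ∈ s, 𝔊.κ i := Finset.sum_nonneg fun i _ => 𝔊.κ_nonneg i
  linarith

/-- a weight `K ≡ r mod m` above all `κ j`, `j ∈ s`, if all `κ j ≡ r mod m`. -/
lemma H69_exists_large_modEq (m r : ℤ) (s : Finset 𝔊.J) (hs : ∀ j ∈ s, 𝔊.κ j % m = r) :
    ∃ K : ℤ, ∀ j ∈ s, 0 ≤ K - 𝔊.κ j ∧ m ∣ K - 𝔊.κ j := by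
  classical
  rcases s.eq_empty_or_nonempty with rfl | ⟨j₀, hj₀⟩
  · exact ⟨0, fun j hj => absurd hj (Finset.notMem_empty j)⟩
  refine ⟨𝔊.κ j₀ + m * m * (∑ j ∈ s, 𝔊.κ j), fun j hj => ⟨?_, ?_⟩⟩
  · have h1 : 𝔊.κ j ≤ ∑ i ∈ s, 𝔊.κ i :=
      Finset.single_le_sum (f := fun i => 𝔊.κ i) (fun i _ => 𝔊.κ_nonneg i) hj
    have h2 : 0 ≤ ∑ i ∈ s, 𝔊.κ i := Finset.sum_nonneg fun i _ => 𝔊.κ_nonneg i
    have h3 : 0 ≤ 𝔊.κ j₀ := 𝔊.κ_nonneg j₀
    by_cases hm : m = 0
    · subst hm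
      have e1 := hs j hj
      have e2 := hs j₀ hj₀
      rw [Int.emod_zero] at e1 e2
      simp only [mul_zero, zero_mul, add_zero]
      rw [e1, e2, sub_self]
    · have h4 : 1 ≤ m * m := by
        have : 0 < m * m := mul_self_pos.mpr hm
        omega
      nlinarith
  · have e1 := hs j hj
    have e2 := hs j₀ hj₀
    have h5 : m ∣ 𝔊.κ j₀ - 𝔊.κ j := by
      apply Int.dvd_of_emod_eq_zero
      rw [Int.sub_emod, e1, e2, sub_self, Int.zero_emod]
    have h6 : 𝔊.κ j₀ + m * m * (∑ j ∈ s, 𝔊.κ j) - 𝔊.κ j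
        = (𝔊.κ j₀ - 𝔊.κ j) + m * (m * ∑ j ∈ s, 𝔊.κ j) := by ring
    rw [h6]
    exact dvd_add h5 (dvd_mul_right _ _)

/-! ### (G2) linear independence of the evaluation vectors
At a generic point `z₀`: if `∑_{j∈s} c_j vec j z₀ = 0`, choose `K` large and even and monomials `G_j` of weight
`K - κ_j` with `G_j z₀ ≠ 0` (`exists_monomial`); `f := ∑ (c_j / G_j z₀) G_j F_j ∈ M_K(Γ₀(N))` has all translates vanishing at
`z₀`, hence vanishes on the `SL(2,ℤ)`-orbit of `z₀`, i.e. at all zeros of `phiAt z₀`; these zeros are simple; so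
`f = phiAt z₀ * h` (Division.lean); by (G1) `(c_j / G_j z₀) G_j = phiAt z₀ * Q_j`; evaluate at `z₀`. -/
lemma linearIndependent_vec_generic (z₀ : ℍ) (h4 : E₄ z₀ ≠ 0) (h6 : E₆ z₀ ≠ 0) :
    LinearIndependent ℂ (fun j => 𝔊.vec j z₀) := by
  classical
  have key : LinearIndependent ℂ (fun j : {j : 𝔊.J // True} => 𝔊.vec j.1 z₀) := by
    refine H69_linearIndependent_class 𝔊 (fun _ => True) z₀ 12 ?_ (phiAt z₀) (isMF_phiAt z₀)
      (phiAt_self z₀) (discriminant_ne_zero z₀) (tendsto_phiAt z₀)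
      (fun z hz => deriv_phiAt_ne_zero h4 h6 hz) (fun z hz => exists_smul_of_phiAt_eq_zero hz)
    intro s _
    obtain ⟨K, hKe, hK⟩ := H69_exists_large_even 𝔊 s
    have hex : ∀ j : 𝔊.J, ∃ G : ℍ → ℂ, j ∈ s → (IsMF 1 (K - 𝔊.κ j) G ∧ G z₀ ≠ 0) := by
      intro j
      by_cases hj : j ∈ s
      · have h1 : 0 ≤ K - 𝔊.κ j := by have := hK j hj; linarith
        have h2 : K - 𝔊.κ j ≠ 2 := by have := hK j hj; intro h; linarith
        have h3 : Even (K - 𝔊.κ j) := hKe.sub (𝔊.κ_even j)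
        obtain ⟨G, hG, -, hG0⟩ := exists_monomial h1 h2 h3
        exact ⟨G, fun _ => ⟨hG, hG0 z₀ h4 h6⟩⟩
      · exact ⟨0, fun h => absurd h hj⟩
    choose G hG using hex
    exact ⟨K, G, fun j hj => (hG j hj).1, fun j hj => (hG j hj).2⟩
  exact key.comp (fun j => (⟨j, trivial⟩ : {j : 𝔊.J // True})) (fun a b h => by simpa using h)

/-- At `i`, within one class of weights mod 4 (same argument with `φ = E₆`, `G_j` = power of `E₄`). -/
lemma linearIndependent_vec_I_class (r : ℤ) :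
    LinearIndependent ℂ (fun j : {j : 𝔊.J // 𝔊.κ j % 4 = r} => 𝔊.vec j.1 UpperHalfPlane.I) := by
  classical
  refine H69_linearIndependent_class 𝔊 (fun j => 𝔊.κ j % 4 = r) UpperHalfPlane.I 6 ?_ (⇑E₆) isMF_E₆
    E₆_I one_ne_zero tendsto_E₆_atImInfty
    (fun z hz => deriv_E₆_ne_zero hz) (fun z hz => exists_smul_I_of_E₆_eq_zero hz)
  intro s hs
  obtain ⟨K, hK⟩ := H69_exists_large_modEq 𝔊 4 r s hs
  have hex : ∀ j : 𝔊.J, ∃ G : ℍ → ℂ, j ∈ s →
      (IsMF 1 (K - 𝔊.κ j) G ∧ G UpperHalfPlane.I ≠ 0) := by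
    intro j
    by_cases hj : j ∈ s
    · obtain ⟨G, hG, hG0⟩ := exists_monomial_four (hK j hj).1 (hK j hj).2
      exact ⟨G, fun _ => ⟨hG, hG0 _ E₄_I_ne_zero⟩⟩
    · exact ⟨0, fun h => absurd h hj⟩
  choose G hG using hex
  exact ⟨K, G, fun j hj => (hG j hj).1, fun j hj => (hG j hj).2⟩

/-- At `ρ`, within one class of weights mod 6 (same argument with `φ = E₄`, `G_j` = power of `E₆`). -/
lemma linearIndependent_vec_ellRho_class (r : ℤ) :
    LinearIndependent ℂ (fun j : {j : 𝔊.J // 𝔊.κ j % 6 = r} => 𝔊.vec j.1 ellRho) := by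
  classical
  refine H69_linearIndependent_class 𝔊 (fun j => 𝔊.κ j % 6 = r) ellRho 4 ?_ (⇑E₄) isMF_E₄
    E₄_ellRho one_ne_zero tendsto_E₄_atImInfty
    (fun z hz => deriv_E₄_ne_zero hz) (fun z hz => exists_smul_ellRho_of_E₄_eq_zero hz)
  intro s hs
  obtain ⟨K, hK⟩ := H69_exists_large_modEq 𝔊 6 r s hs
  have hex : ∀ j : 𝔊.J, ∃ G : ℍ → ℂ, j ∈ s →
      (IsMF 1 (K - 𝔊.κ j) G ∧ G ellRho ≠ 0) := by
    intro j
    by_cases hj : j ∈ s
    · obtain ⟨G, hG, hG0⟩ := exists_monomial_six (hK j hj).1 (hK j hj).2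
      exact ⟨G, fun _ => ⟨hG, hG0 _ E₆_ellRho_ne_zero⟩⟩
    · exact ⟨0, fun h => absurd h hj⟩
  choose G hG using hex
  exact ⟨K, G, fun j hj => (hG j hj).1, fun j hj => (hG j hj).2⟩

/-- the permutation `x ↦ S⁻¹ • x` of `X`. -/
noncomputable def permS (N : ℕ) : Equiv.Perm (CosetX N) := MulAction.toPerm (ModularGroup.S⁻¹)

/-- the permutation `x ↦ (S*T)⁻¹ • x` of `X`. -/
noncomputable def permST (N : ℕ) : Equiv.Perm (CosetX N) :=
  MulAction.toPerm ((ModularGroup.S * ModularGroup.T)⁻¹)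

/-- the permutation `x ↦ T⁻¹ • x` of `X`. -/
noncomputable def permT (N : ℕ) : Equiv.Perm (CosetX N) := MulAction.toPerm (ModularGroup.T⁻¹)

lemma H69_neg_one_inv : ((-1 : SL(2, ℤ)))⁻¹ = -1 := by
  rw [inv_eq_iff_eq_inv]
  ext i j
  fin_cases i <;> fin_cases j <;> simp

/-- `-1` acts trivially on the coset space. -/
lemma H69_neg_one_smul (x : CosetX N) : (-1 : SL(2, ℤ)) • x = x := by
  induction x using QuotientGroup.induction_on with
  | H a =>
    show (QuotientGroup.mk ((-1 : SL(2, ℤ)) * a) : CosetX N) = QuotientGroup.mk a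
    rw [QuotientGroup.eq]
    have h : ((-1 : SL(2, ℤ)) * a)⁻¹ * a = -1 := by
      rw [mul_inv_rev, mul_assoc, H69_neg_one_inv]
      ext i j
      simp
    rw [h, Gamma0_mem]
    simp

lemma H69_S_mul_S : ModularGroup.S * ModularGroup.S = -1 := by
  ext i j
  fin_cases i <;> fin_cases j <;>
    simp [Matrix.SpecialLinearGroup.coe_mul, ModularGroup.coe_S, Matrix.mul_apply,
      Fin.sum_univ_two]

lemma H69_ST_pow_three :
    (ModularGroup.S * ModularGroup.T) * (ModularGroup.S * ModularGroup.T) *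
      (ModularGroup.S * ModularGroup.T) = -1 := by
  ext i j
  fin_cases i <;> fin_cases j <;>
    simp [Matrix.SpecialLinearGroup.coe_mul, ModularGroup.coe_S, ModularGroup.coe_T,
      Matrix.mul_apply, Fin.sum_univ_two]

lemma H69_isPrimitiveRoot_six {d : ℂ} (h : d ^ 2 - d + 1 = 0) : IsPrimitiveRoot d 6 := by
  have h2 : d ^ 2 = d - 1 := by linear_combination h
  have h3 : d ^ 3 = -1 := by linear_combination (d + 1) * h
  have h4 : d ^ 4 = -d := by linear_combination (d ^ 2 + d) * h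
  have h5 : d ^ 5 = 1 - d := by linear_combination (d ^ 3 + d ^ 2 - 1) * h
  refine IsPrimitiveRoot.mk_of_lt d (by norm_num) ?_ ?_
  · linear_combination (d ^ 4 + d ^ 3 - d - 1) * h
  · intro l hl0 hl6 hl
    interval_cases l
    · rw [pow_one] at hl
      rw [hl] at h
      norm_num at h
    · rw [h2] at hl
      have hd : d = 2 := by linear_combination hl
      rw [hd] at h
      norm_num at h
    · rw [h3] at hl
      norm_num at hl
    · rw [h4] at hl
      have hd : d = -1 := by linear_combination -hl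
      rw [hd] at h
      norm_num at h
    · rw [h5] at hl
      have hd : d = 0 := by linear_combination -hl
      rw [hd] at h
      norm_num at h

/-- a primitive `m`-th root of unity separates residues mod `m`. -/
lemma H69_zpow_neg_emod_inj {d : ℂ} {m : ℕ} (hm : 0 < m) (hd : IsPrimitiveRoot d m) (a b : ℤ)
    (h : d ^ (-(a % (m : ℤ))) = d ^ (-(b % (m : ℤ)))) : a % (m : ℤ) = b % (m : ℤ) := by
  have hd0 : d ≠ 0 := hd.ne_zero hm.ne'
  have hm' : (0 : ℤ) < m := by exact_mod_cast hm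
  have h1 : d ^ (a % (m : ℤ) - b % (m : ℤ)) = 1 := by
    rw [sub_eq_add_neg, zpow_add₀ hd0, ← h, ← zpow_add₀ hd0, add_neg_cancel, zpow_zero]
  have h2 := (hd.zpow_eq_one_iff_dvd _).mp h1
  have ha := Int.emod_nonneg a hm'.ne'
  have hb := Int.emod_nonneg b hm'.ne'
  have ha' := Int.emod_lt_of_pos a hm'
  have hb' := Int.emod_lt_of_pos b hm'
  obtain ⟨t, ht⟩ := h2
  have ht0 : t = 0 := by
    by_contra hne
    rcases lt_or_gt_of_ne hne with hlt | hgt
    · have : (m : ℤ) * t ≤ -(m : ℤ) := by nlinarith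
      omega
    · have : (m : ℤ) ≤ (m : ℤ) * t := by nlinarith
      omega
  rw [ht0, mul_zero] at ht
  omega

lemma H69_zpow_neg_emod {d : ℂ} {m : ℕ} (hd0 : d ≠ 0) (hd : d ^ m = 1) (a : ℤ) :
    d ^ (-a) = d ^ (-(a % (m : ℤ))) := by
  have h1 : -a = -(a % (m : ℤ)) + (m : ℤ) * (-(a / (m : ℤ))) := by
    have := Int.emod_add_mul_ediv a (m : ℤ)
    linarith
  rw [h1, zpow_add₀ hd0, zpow_mul, zpow_natCast, hd, one_zpow, mul_one]

/-- transport of independence along the action of `SL(2,ℤ)`. -/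
lemma H69_li_smul (g : SL(2, ℤ)) (z : ℍ) (h : LinearIndependent ℂ (fun j => 𝔊.vec j z)) :
    LinearIndependent ℂ (fun j => 𝔊.vec j (g • z)) := by
  have h1 : (fun j => 𝔊.vec j (g • z)) =
      (fun j => Units.mk0 (denom g z ^ 𝔊.κ j) (zpow_ne_zero _ (denom_ne_zero g z))) •
        (fun j => (LinearMap.funLeft ℂ ℂ (fun x : CosetX N => g⁻¹ • x)) (𝔊.vec j z)) := by
    funext j
    funext x
    rw [𝔊.vec_smul j g z x]
    rfl
  rw [h1]
  refine LinearIndependent.units_smul ?_ _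
  exact h.map' _ (LinearMap.ker_eq_bot.mpr
    (LinearMap.funLeft_injective_of_surjective _ _ _ (MulAction.surjective g⁻¹)))

lemma permS_mul_self : permS N * permS N = 1 := by
  ext x
  show ModularGroup.S⁻¹ • (ModularGroup.S⁻¹ • x) = x
  rw [← mul_smul, ← mul_inv_rev, H69_S_mul_S, H69_neg_one_inv, H69_neg_one_smul]

lemma permST_pow_three : permST N * permST N * permST N = 1 := by
  ext x
  show (ModularGroup.S * ModularGroup.T)⁻¹ • ((ModularGroup.S * ModularGroup.T)⁻¹ •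
    ((ModularGroup.S * ModularGroup.T)⁻¹ • x)) = x
  rw [← mul_smul, ← mul_smul, ← mul_inv_rev, ← mul_inv_rev, ← mul_assoc, H69_ST_pow_three,
    H69_neg_one_inv, H69_neg_one_smul]

/-- `vec j i` is an eigenvector of `x ↦ S⁻¹ • x` with eigenvalue `i^{-κ_j}` (`= ±1`). -/
lemma vec_I_mem_permEigen (j : 𝔊.J) :
    𝔊.vec j UpperHalfPlane.I ∈ permEigen (permS N) (Complex.I ^ (-𝔊.κ j)) := by
  show ∀ x, 𝔊.vec j UpperHalfPlane.I (permS N x) =
    Complex.I ^ (-𝔊.κ j) * 𝔊.vec j UpperHalfPlane.I x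
  intro x
  have h := 𝔊.vec_smul j ModularGroup.S UpperHalfPlane.I x
  rw [S_smul_I, denom_S_I] at h
  show 𝔊.vec j UpperHalfPlane.I (ModularGroup.S⁻¹ • x) = _
  rw [h, ← mul_assoc, ← zpow_add₀ Complex.I_ne_zero, neg_add_cancel, zpow_zero, one_mul]

/-- `vec j ρ` is an eigenvector of `x ↦ (S*T)⁻¹ • x` with eigenvalue `(ρ+1)^{-κ_j}`. -/
lemma vec_ellRho_mem_permEigen (j : 𝔊.J) :
    𝔊.vec j ellRho ∈
      permEigen (permST N) ((denom (ModularGroup.S * ModularGroup.T) ellRho) ^ (-𝔊.κ j)) := by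
  show ∀ x, 𝔊.vec j ellRho (permST N x) =
    (denom (ModularGroup.S * ModularGroup.T) ellRho) ^ (-𝔊.κ j) * 𝔊.vec j ellRho x
  intro x
  have h := 𝔊.vec_smul j (ModularGroup.S * ModularGroup.T) ellRho x
  rw [ST_smul_ellRho] at h
  have hcoe : denom ((ModularGroup.S * ModularGroup.T : SL(2, ℤ)) : GL (Fin 2) ℝ) ellRho =
      denom (ModularGroup.S * ModularGroup.T) ellRho := by
    simp only [map_mul]
  rw [hcoe] at h
  show 𝔊.vec j ellRho ((ModularGroup.S * ModularGroup.T)⁻¹ • x) = _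
  rw [h, ← mul_assoc, ← zpow_add₀ (denom_ne_zero _ _), neg_add_cancel, zpow_zero, one_mul]

/-- independence at `i` (classes mod 4 lie in different eigenspaces of `permS`). -/
lemma linearIndependent_vec_I : LinearIndependent ℂ (fun j => 𝔊.vec j UpperHalfPlane.I) := by
  classical
  refine H69_li_of_eigen (PermEigenAux.pull (permS N)) (fun j => 𝔊.vec j UpperHalfPlane.I)
    (fun j => 𝔊.κ j % ((4 : ℕ) : ℤ)) (fun r => Complex.I ^ (-r)) ?_ ?_ ?_
  · intro j
    funext x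
    have h := 𝔊.vec_I_mem_permEigen j x
    rw [PermEigenAux.pull_apply, h, Pi.smul_apply, smul_eq_mul,
      H69_zpow_neg_emod Complex.I_ne_zero Complex.I_pow_four]
  · intro j j' h
    exact H69_zpow_neg_emod_inj (by norm_num) Complex.isPrimitiveRoot_I _ _ h
  · intro r
    exact 𝔊.linearIndependent_vec_I_class r

lemma linearIndependent_vec_ellRho : LinearIndependent ℂ (fun j => 𝔊.vec j ellRho) := by
  classical
  have hd := H69_isPrimitiveRoot_six denom_ST_ellRho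
  refine H69_li_of_eigen (PermEigenAux.pull (permST N)) (fun j => 𝔊.vec j ellRho)
    (fun j => 𝔊.κ j % ((6 : ℕ) : ℤ))
    (fun r => (denom (ModularGroup.S * ModularGroup.T) ellRho) ^ (-r)) ?_ ?_ ?_
  · intro j
    funext x
    have h := 𝔊.vec_ellRho_mem_permEigen j x
    rw [PermEigenAux.pull_apply, h, Pi.smul_apply, smul_eq_mul,
      H69_zpow_neg_emod (denom_ne_zero _ _) hd.pow_eq_one]
  · intro j j' h
    exact H69_zpow_neg_emod_inj (by norm_num) hd _ _ h
  · intro r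
    exact 𝔊.linearIndependent_vec_ellRho_class r

/-- independence at every point (generic / orbit of `i` / orbit of `ρ`, using `vec_smul`). -/
lemma linearIndependent_vec (z : ℍ) : LinearIndependent ℂ (fun j => 𝔊.vec j z) := by
  by_cases h6 : E₆ z = 0
  · obtain ⟨g, rfl⟩ := exists_smul_I_of_E₆_eq_zero h6
    exact H69_li_smul 𝔊 g _ 𝔊.linearIndependent_vec_I
  by_cases h4 : E₄ z = 0
  · obtain ⟨g, rfl⟩ := exists_smul_ellRho_of_E₄_eq_zero h4
    exact H69_li_smul 𝔊 g _ 𝔊.linearIndependent_vec_ellRho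
  exact 𝔊.linearIndependent_vec_generic z h4 h6

end Gens

end Fermat.Agent.S20
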