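/-
S20, component (F): a weight-12 form on `Γ₀(N)` whose stabiliser in `SL(2,ℤ)` is exactly `Γ₀(N)`.
Take `f(z) = Δ(N z)`: for `g ∈ SL(2,ℤ)`, `diag(N,1) g = g' (A B; 0 D)` with `g' ∈ SL(2,ℤ)`, `A D = N`, so
`f ∣[12] g` is a constant times `Δ((A z + B)/D)`, whose `q`-expansion starts with `q^{A/D}`;
it equals `f = q^N + ...` only if `D = 1`, i.e. `N ∣ g 1 0`.
-/
import Fermat.Agent.S20.Defs
import Fermat.Prelude.Def_ModularForm_HeckeOperator

set_option autoImplicit false

namespace Fermat.Agent.S20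

open UpperHalfPlane ModularForm CongruenceSubgroup
open scoped MatrixGroups ModularForm Manifold

/-- Integer version of the decomposition `diag(N,1) g = g' (h B; 0 D)`. -/
lemma sep_decomp_int (N : ℕ) (hN : N ≠ 0) (g : SL(2, ℤ)) :
    ∃ (g' : SL(2, ℤ)) (h D : ℕ) (B : ℤ), h * D = N ∧ ((h : ℤ) ∣ g 1 0) ∧
      (N : ℤ) * g 0 0 = g' 0 0 * h ∧ (N : ℤ) * g 0 1 = g' 0 0 * B + g' 0 1 * D ∧
      g 1 0 = g' 1 0 * h ∧ g 1 1 = g' 1 0 * B + g' 1 1 * D := by
  have hdet : g 0 0 * g 1 1 - g 0 1 * g 1 0 = 1 := by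
    have := g.det_coe
    rw [Matrix.det_fin_two] at this
    exact this
  set a := g 0 0 with ha
  set b := g 0 1 with hb
  set c := g 1 0 with hc
  set d := g 1 1 with hd
  set h : ℕ := Int.gcd (N : ℤ) c with hh
  have hhpos : 0 < h := Int.gcd_pos_of_ne_zero_left _ (by exact_mod_cast hN)
  obtain ⟨D, hD⟩ : (h : ℤ) ∣ (N : ℤ) := Int.gcd_dvd_left _ _
  obtain ⟨c₁, hc₁⟩ : (h : ℤ) ∣ c := Int.gcd_dvd_right _ _
  have hDpos : 0 < D := by
    by_contra hcon
    have hNpos : (0 : ℤ) < N := by exact_mod_cast Nat.pos_of_ne_zero hN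
    have : (h : ℤ) * D ≤ 0 := mul_nonpos_of_nonneg_of_nonpos (by positivity) (by omega)
    omega
  have hcop : IsCoprime D c₁ := by
    rw [Int.isCoprime_iff_gcd_eq_one]
    have h1 : Int.gcd ((h : ℤ) * D) ((h : ℤ) * c₁) = h := by rw [← hD, ← hc₁]
    rw [Int.gcd_mul_left] at h1
    simp only [Int.natAbs_natCast] at h1
    have : h * Int.gcd D c₁ = h * 1 := by rw [h1, mul_one]
    exact Nat.eq_of_mul_eq_mul_left hhpos this
  have hcop2 : IsCoprime a c₁ := ⟨d, -b * h, by rw [hc₁] at hdet; linear_combination hdet⟩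
  obtain ⟨x, y, hxy⟩ : IsCoprime (D * a) c₁ := IsCoprime.mul_left hcop hcop2
  refine ⟨⟨!![D * a, -y; c₁, x], ?_⟩, h, D.toNat, x * N * b + y * d, ?_, ⟨c₁, hc₁⟩, ?_, ?_, ?_, ?_⟩
  · rw [Matrix.det_fin_two_of]; linear_combination hxy
  · have : ((h * D.toNat : ℕ) : ℤ) = N := by
      push_cast
      rw [Int.toNat_of_nonneg hDpos.le, hD]
    exact_mod_cast this
  · simp only [Matrix.of_apply, Matrix.cons_val', Matrix.cons_val_zero,
      Matrix.cons_val_fin_one]
    rw [hD]; ring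
  · simp only [Matrix.of_apply, Matrix.cons_val', Matrix.cons_val_zero,
      Matrix.cons_val_fin_one, Matrix.cons_val_one]
    rw [Int.toNat_of_nonneg hDpos.le, hD]
    rw [hc₁] at hdet
    linear_combination (-(D * b * h)) * hxy + (-(D * y)) * hdet
  · simp only [Matrix.of_apply, Matrix.cons_val', Matrix.cons_val_zero,
      Matrix.cons_val_fin_one, Matrix.cons_val_one]
    rw [hc₁]; ring
  · simp only [Matrix.of_apply, Matrix.cons_val', Matrix.cons_val_zero,
      Matrix.cons_val_fin_one, Matrix.cons_val_one]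
    rw [Int.toNat_of_nonneg hDpos.le, hD]
    rw [hc₁] at hdet
    linear_combination (-d) * hxy + (x * D) * hdet

/-- Entries of `upperTriangularGL`. -/
lemma sep_upper_apply (a b d : ℝ) (had : a * d ≠ 0) (i j : Fin 2) :
    (upperTriangularGL a b d had : GL (Fin 2) ℝ) i j = !![a, b; 0, d] i j := rfl

/-- The decomposition `diag(N,1) g = g' (h B; 0 D)` in `GL(2,ℝ)`. -/
lemma sep_decomp (N : ℕ) (hN : N ≠ 0) (g : SL(2, ℤ)) :
    ∃ (g' : SL(2, ℤ)) (h D : ℕ) (B : ℤ) (hhD : (h : ℝ) * (D : ℝ) ≠ 0),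
      h * D = N ∧ ((h : ℤ) ∣ g 1 0) ∧
      upperTriangularGL N 0 1 (by rw [mul_one]; exact_mod_cast hN) * (g : GL (Fin 2) ℝ)
        = (g' : GL (Fin 2) ℝ) * upperTriangularGL h B D hhD := by
  obtain ⟨g', h, D, B, hhD, hdvd, e00, e01, e10, e11⟩ := sep_decomp_int N hN g
  have hne : (h : ℝ) * (D : ℝ) ≠ 0 := by
    have : h * D ≠ 0 := by rw [hhD]; exact hN
    exact_mod_cast this
  refine ⟨g', h, D, B, hne, hhD, hdvd, ?_⟩
  have r00 : (N : ℝ) * (g 0 0 : ℝ) = (g' 0 0 : ℝ) * h := by exact_mod_cast e00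
  have r01 : (N : ℝ) * (g 0 1 : ℝ) = (g' 0 0 : ℝ) * B + (g' 0 1 : ℝ) * D := by exact_mod_cast e01
  have r10 : (g 1 0 : ℝ) = (g' 1 0 : ℝ) * h := by exact_mod_cast e10
  have r11 : (g 1 1 : ℝ) = (g' 1 0 : ℝ) * B + (g' 1 1 : ℝ) * D := by exact_mod_cast e11
  apply Matrix.GeneralLinearGroup.ext
  intro i j
  fin_cases i <;> fin_cases j <;>
    simp [Matrix.mul_apply, Fin.sum_univ_two, r00, r01, r10, r11]

/-- `Δ` is invariant under `SL(2,ℤ)`. -/
lemma sep_discriminant_slash (g : SL(2, ℤ)) :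
    ModularForm.discriminant ∣[(12 : ℤ)] (g : GL (Fin 2) ℝ) = ModularForm.discriminant := by
  rw [← SL_slash]
  exact SlashInvariantForm.slash_action_generators_SL2Z discriminant_S_invariant
    discriminant_T_invariant g

open Filter Asymptotics in
/-- Comparing exponential decay rates along `atImInfty`. -/
lemma sep_exp_isBigO_imp_le {a b : ℝ}
    (h : (fun τ : ℍ => Real.exp (-a * τ.im)) =O[atImInfty] (fun τ : ℍ => Real.exp (-b * τ.im))) :
    b ≤ a := by
  by_contra hlt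
  push Not at hlt
  obtain ⟨c, hc⟩ := h.bound
  rw [Filter.Eventually, UpperHalfPlane.atImInfty_mem] at hc
  obtain ⟨A, hA⟩ := hc
  set y : ℝ := max A 1 + |c| / (b - a) + 1 with hy
  have hba : 0 < b - a := sub_pos.mpr hlt
  have hy1 : 1 ≤ y := by
    have : 0 ≤ |c| / (b - a) := div_nonneg (abs_nonneg _) hba.le
    have := le_max_right A 1
    linarith
  have hyA : A ≤ y := by
    have : 0 ≤ |c| / (b - a) := div_nonneg (abs_nonneg _) hba.le
    have := le_max_left A 1
    linarith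
  have hypos : 0 < y := by linarith
  have key := hA ⟨⟨0, y⟩, by simpa using hypos⟩ (by simpa using hyA)
  simp only [Set.mem_ofPred_eq, Real.norm_eq_abs, abs_of_pos (Real.exp_pos _)] at key
  have him : (⟨⟨0, y⟩, by simpa using hypos⟩ : ℍ).im = y := rfl
  rw [him] at key
  have h1 : Real.exp ((b - a) * y) ≤ c := by
    have h2 : Real.exp (-a * y) = Real.exp ((b - a) * y) * Real.exp (-b * y) := by
      rw [← Real.exp_add]; congr 1; ring
    rw [h2] at key
    have h3 : 0 < Real.exp (-b * y) := Real.exp_pos _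
    exact le_of_mul_le_mul_right key h3
  have h4 : (b - a) * y + 1 ≤ Real.exp ((b - a) * y) := Real.add_one_le_exp _
  have h5 : |c| < (b - a) * y := by
    have : (b - a) * y = (b - a) * (max A 1 + 1) + |c| := by
      rw [hy]; field_simp; ring
    rw [this]
    have : 0 < (b - a) * (max A 1 + 1) := by
      apply mul_pos hba
      have := le_max_right A 1
      linarith
    linarith
  have h6 : c ≤ |c| := le_abs_self c
  linarith

lemma sep_det_upper (a b d : ℝ) (had : a * d ≠ 0) :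
    ((upperTriangularGL a b d had).det : ℝ) = a * d := by
  rw [Matrix.GeneralLinearGroup.val_det_apply, val_upperTriangularGL, Matrix.det_fin_two_of]
  ring

lemma sep_denom_upper (a b d : ℝ) (had : a * d ≠ 0) (τ : ℍ) :
    denom (upperTriangularGL a b d had) τ = d := by
  simp [denom, val_upperTriangularGL]

/-- Slash by an upper triangular matrix with positive diagonal entries. -/
lemma sep_slash_upper_apply (k : ℤ) {a d : ℝ} (b : ℝ) (ha : 0 < a) (hd : 0 < d) (f : ℍ → ℂ)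
    (τ : ℍ) :
    (f ∣[k] upperTriangularGL a b d (mul_pos ha hd).ne') τ
      = f (upperTriangularGL a b d (mul_pos ha hd).ne' • τ) * ((a * d : ℝ) : ℂ) ^ (k - 1)
          * (d : ℂ) ^ (-k) := by
  rw [ModularForm.slash_apply]
  have hσ : σ (upperTriangularGL a b d (mul_pos ha hd).ne') = .refl ℝ ℂ := by
    rw [UpperHalfPlane.σ, if_pos (by rw [sep_det_upper]; exact mul_pos ha hd)]
  rw [hσ, sep_det_upper, sep_denom_upper, abs_of_pos (mul_pos ha hd)]
  simp

lemma sep_im_upper_smul {a d : ℝ} (b : ℝ) (ha : 0 < a) (hd : 0 < d) (τ : ℍ) :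
    (upperTriangularGL a b d (mul_pos ha hd).ne' • τ).im = a / d * τ.im := by
  rw [UpperHalfPlane.im_smul_eq_div_normSq, sep_det_upper, sep_denom_upper,
    abs_of_pos (mul_pos ha hd), Complex.normSq_ofReal]
  field_simp

/-- `diag(N, 1)`. -/
noncomputable def sepAlpha (N : ℕ) [NeZero N] : GL (Fin 2) ℝ :=
  upperTriangularGL N 0 1 (by rw [mul_one]; exact_mod_cast NeZero.ne N)

/-- The separating form `N¹¹ Δ(N z)`. -/
noncomputable def sepForm (N : ℕ) [NeZero N] : ℍ → ℂ :=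
  ModularForm.discriminant ∣[(12 : ℤ)] sepAlpha N

lemma sepForm_slash_SL (N : ℕ) [NeZero N] (g : SL(2, ℤ)) :
    ∃ (h D : ℕ) (B : ℤ) (hh : 0 < (h : ℝ)) (hD : 0 < (D : ℝ)),
      h * D = N ∧ ((h : ℤ) ∣ g 1 0) ∧
      sepForm N ∣[(12 : ℤ)] g =
        ModularForm.discriminant ∣[(12 : ℤ)] upperTriangularGL h B D (mul_pos hh hD).ne' := by
  obtain ⟨g', h, D, B, hne, hhD, hdvd, hmat⟩ := sep_decomp N (NeZero.ne N) g
  have hh : 0 < (h : ℝ) := by
    have : h ≠ 0 := by rintro rfl; simp at hne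
    exact_mod_cast Nat.pos_of_ne_zero this
  have hD : 0 < (D : ℝ) := by
    have : D ≠ 0 := by rintro rfl; simp at hne
    exact_mod_cast Nat.pos_of_ne_zero this
  refine ⟨h, D, B, hh, hD, hhD, hdvd, ?_⟩
  rw [sepForm, SL_slash, ← SlashAction.slash_mul, sepAlpha, hmat, SlashAction.slash_mul,
    sep_discriminant_slash]

lemma sep_conj_mem (N : ℕ) [NeZero N] (γ : SL(2, ℤ)) (hγ : γ ∈ Gamma0 N) :
    ∃ γ' : SL(2, ℤ), sepAlpha N * (γ : GL (Fin 2) ℝ) = (γ' : GL (Fin 2) ℝ) * sepAlpha N := by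
  rw [Gamma0_mem, ZMod.intCast_zmod_eq_zero_iff_dvd] at hγ
  obtain ⟨c', hc'⟩ := hγ
  have hdet : γ 0 0 * γ 1 1 - γ 0 1 * γ 1 0 = 1 := by
    have := γ.det_coe
    rw [Matrix.det_fin_two] at this
    exact this
  refine ⟨⟨!![γ 0 0, N * γ 0 1; c', γ 1 1], ?_⟩, ?_⟩
  · rw [Matrix.det_fin_two_of]; rw [hc'] at hdet; linear_combination hdet
  · have r10 : (γ 1 0 : ℝ) = (N : ℝ) * (c' : ℝ) := by exact_mod_cast hc'
    apply Matrix.GeneralLinearGroup.ext
    intro i j
    fin_cases i <;> fin_cases j <;>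
      simp [sepAlpha, Matrix.mul_apply, Fin.sum_univ_two, r10, mul_comm]

lemma sepForm_isMF (N : ℕ) [NeZero N] : IsMF N 12 (sepForm N) where
  holo := (CuspForm.discriminant).holo'.slash 12 _
  slash γ hγ := by
    obtain ⟨γ', hγ'⟩ := sep_conj_mem N γ hγ
    rw [sepForm, SL_slash, ← SlashAction.slash_mul, hγ', SlashAction.slash_mul,
      sep_discriminant_slash]
  bdd g := by
    obtain ⟨h, D, B, hh, hD, hhD, hdvd, hslash⟩ := sepForm_slash_SL N g
    rw [hslash]
    exact IsBoundedAtImInfty.slash 12 (by simp [sep_upper_apply])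
      discriminant_isZeroAtImInfty.boundedAtFilter

open Filter Asymptotics in
lemma sepForm_separates (N : ℕ) [NeZero N] (g : SL(2, ℤ))
    (hg : sepForm N ∣[(12 : ℤ)] g = sepForm N) : g ∈ Gamma0 N := by
  obtain ⟨h, D, B, hh, hD, hhD, hdvd, hslash⟩ := sepForm_slash_SL N g
  rw [hslash] at hg
  have hN : 0 < (N : ℝ) := by exact_mod_cast Nat.pos_of_ne_zero (NeZero.ne N)
  have hhDr : (h : ℝ) * (D : ℝ) = N := by exact_mod_cast hhD
  have key : ∀ τ : ℍ,
      ModularForm.discriminant (upperTriangularGL h B D (mul_pos hh hD).ne' • τ)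
      = (D : ℂ) ^ (12 : ℕ) *
        ModularForm.discriminant (upperTriangularGL N 0 1 (mul_pos hN one_pos).ne' • τ) := by
    intro τ
    have h1 := congrFun hg τ
    rw [sepForm, sepAlpha, sep_slash_upper_apply 12 B hh hD,
      sep_slash_upper_apply 12 0 hN one_pos] at h1
    have hNc : (N : ℂ) ≠ 0 := by exact_mod_cast NeZero.ne N
    have hDc : (D : ℂ) ≠ 0 := by
      have : (D : ℝ) ≠ 0 := hD.ne'
      exact_mod_cast this
    have e : (((h : ℝ) * (D : ℝ) : ℝ) : ℂ) = (N : ℂ) := by rw [hhDr]; simp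
    rw [e] at h1
    simp only [mul_one, Complex.ofReal_natCast, Complex.ofReal_one, one_zpow] at h1
    have h2 : ((N : ℂ) ^ ((12 : ℤ) - 1)) ≠ 0 := zpow_ne_zero _ hNc
    have h3 : ModularForm.discriminant (upperTriangularGL h B D (mul_pos hh hD).ne' • τ)
        * (D : ℂ) ^ (-(12 : ℤ))
        = ModularForm.discriminant (upperTriangularGL N 0 1 (mul_pos hN one_pos).ne' • τ) := by
      have h4 : ModularForm.discriminant (upperTriangularGL h B D (mul_pos hh hD).ne' • τ)
          * (D : ℂ) ^ (-(12 : ℤ)) * (N : ℂ) ^ ((12 : ℤ) - 1)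
          = ModularForm.discriminant (upperTriangularGL N 0 1 (mul_pos hN one_pos).ne' • τ)
            * (N : ℂ) ^ ((12 : ℤ) - 1) := by
        rw [← h1]; ring
      exact mul_right_cancel₀ h2 h4
    rw [← h3]
    generalize ModularForm.discriminant (upperTriangularGL h B D (mul_pos hh hD).ne' • τ) = X
    rw [zpow_neg, show ((12 : ℤ)) = ((12 : ℕ) : ℤ) by rfl, zpow_natCast]
    field_simp
  set β : GL (Fin 2) ℝ := upperTriangularGL h B D (mul_pos hh hD).ne' with hβ
  set α : GL (Fin 2) ℝ := upperTriangularGL N 0 1 (mul_pos hN one_pos).ne' with hα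
  have hβ10 : (β : Matrix (Fin 2) (Fin 2) ℝ) 1 0 = 0 := by simp [hβ, sep_upper_apply]
  have hα10 : (α : Matrix (Fin 2) (Fin 2) ℝ) 1 0 = 0 := by simp [hα, sep_upper_apply]
  have lower := exp_isBigO_discriminant.comp_tendsto (tendsto_smul_atImInfty hβ10)
  have upper := (CuspFormClass.exp_decay_atImInfty (h := 1) CuspForm.discriminant one_pos
    one_mem_strictPeriods_SL).comp_tendsto (tendsto_smul_atImInfty hα10)
  have mid : (fun τ : ℍ => ModularForm.discriminant (β • τ))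
      =O[atImInfty] (fun τ : ℍ => ModularForm.discriminant (α • τ)) := by
    have : (fun τ : ℍ => ModularForm.discriminant (β • τ))
        = fun τ : ℍ => (D : ℂ) ^ (12 : ℕ) * ModularForm.discriminant (α • τ) := funext key
    rw [this]
    exact (isBigO_refl _ _).const_mul_left _
  have all : (fun τ : ℍ => Real.exp (-(2 * Real.pi * (h / D)) * τ.im))
      =O[atImInfty] (fun τ : ℍ => Real.exp (-(2 * Real.pi * N) * τ.im)) := by
    have e1 : (fun τ : ℍ => Real.exp (-(2 * Real.pi * (h / D)) * τ.im))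
        = (fun τ : ℍ => Real.exp (-2 * Real.pi * τ.im)) ∘ (fun τ : ℍ => β • τ) := by
      funext τ
      simp only [Function.comp_apply, hβ, sep_im_upper_smul B hh hD]
      congr 1; ring
    have e2 : (fun τ : ℍ => Real.exp (-(2 * Real.pi * N) * τ.im))
        = (fun τ : ℍ => Real.exp (-2 * Real.pi * τ.im / 1)) ∘ (fun τ : ℍ => α • τ) := by
      funext τ
      simp only [Function.comp_apply, hα, sep_im_upper_smul 0 hN one_pos]
      congr 1; ring
    rw [e1, e2]
    exact (lower.trans mid).trans upper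
  have hle := sep_exp_isBigO_imp_le all
  -- `N ≤ h / D`
  have h1 : (N : ℝ) ≤ h / D := by
    have hpi : 0 < 2 * Real.pi := by positivity
    exact le_of_mul_le_mul_left hle hpi
  have h2 : (N : ℝ) * D ≤ h := by rwa [le_div_iff₀ hD] at h1
  have h3 : (h : ℝ) * D * D ≤ h * 1 := by rw [hhDr, mul_one]; exact h2
  have hDone : D = 1 := by
    have hD1 : 1 ≤ D := by
      have : (0 : ℝ) < D := hD
      exact_mod_cast this
    have h4 : (D : ℝ) * D ≤ 1 := by
      have : (h : ℝ) * (D * D) ≤ h * 1 := by rw [← mul_assoc]; exact h3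
      exact le_of_mul_le_mul_left this hh
    have h5 : D * D ≤ 1 := by exact_mod_cast h4
    nlinarith
  rw [hDone, mul_one] at hhD
  rw [Gamma0_mem, ZMod.intCast_zmod_eq_zero_iff_dvd, ← hhD]
  exact hdvd

theorem exists_separating_form (N : ℕ) [NeZero N] :
    ∃ f : ℍ → ℂ, IsMF N 12 f ∧ ∀ g : SL(2, ℤ), f ∣[(12 : ℤ)] g = f → g ∈ Gamma0 N :=
  ⟨sepForm N, sepForm_isMF N, sepForm_separates N⟩

end Fermat.Agent.S20
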