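/-
S20 core (G3): the number of generators is n = |X|.
All lemmas of this file are proved (helper44); see also the S20 blueprint note.
Notation: `X = CosetX N = SL(2,ℤ) ⧸ Γ₀(N)`, `n = |X|`, `tr N k f x` = translate of `f` (Basics.lean),
`(tr N k f x) ∣[k] g = tr N k f (g⁻¹ • x)` (`IsMF.tr_slash`).
-/
import Fermat.Agent.S20.GensIndep
import Fermat.Agent.S20.Separating
import Mathlib.LinearAlgebra.Vandermonde
import Mathlib.Analysis.Analytic.IsolatedZeros
import Mathlib.Analysis.Complex.CauchyIntegral

set_option autoImplicit false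
set_option linter.unusedSectionVars false
set_option linter.style.haveILetI false

namespace Fermat.Agent.S20

open UpperHalfPlane hiding I
open ModularForm CongruenceSubgroup Filter Topology Complex
open scoped MatrixGroups ModularForm Manifold Real

local notation "Δ" => ModularForm.discriminant

namespace GensRankAux

variable {N : ℕ} [NeZero N]

instance finite_cosetX : Finite (CosetX N) := by
  unfold CosetX
  infer_instance

/-- slash of a power by an element of `SL(2,ℤ)`. -/
lemma pow_slash_SL (f : ℍ → ℂ) (k : ℤ) (g : SL(2, ℤ)) (l : ℕ) :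
    (f ^ l) ∣[(l : ℤ) * k] g = (f ∣[k] g) ^ l := by
  induction l with
  | zero =>
    simp only [Nat.cast_zero, zero_mul, pow_zero]
    exact ModularForm.is_invariant_one g
  | succ l ih =>
    rw [pow_succ, pow_succ, ← ih, ← ModularForm.mul_slash_SL2]
    congr 1
    push_cast
    ring

/-- translate of a power. -/
lemma tr_pow (f : ℍ → ℂ) (k : ℤ) (x : CosetX N) (l : ℕ) :
    tr N ((l : ℤ) * k) (f ^ l) x = (tr N k f x) ^ l := by
  unfold tr
  exact pow_slash_SL f k _ l

/-- powers of modular forms are modular forms. -/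
lemma isMF_pow {k : ℤ} {f : ℍ → ℂ} (hf : IsMF N k f) (l : ℕ) : IsMF N ((l : ℤ) * k) (f ^ l) := by
  induction l with
  | zero =>
    simp only [Nat.cast_zero, zero_mul, pow_zero]
    exact IsMF.const (N := N) 1
  | succ l ih =>
    rw [pow_succ]
    exact (ih.mul hf).cast (by push_cast; ring)

omit [NeZero N] in
lemma tr_mul_of_one' {k k' l : ℤ} (hk : k' + l = k) {P : ℍ → ℂ} (hP : IsMF 1 k' P) (f : ℍ → ℂ)
    (x : CosetX N) : tr N k (P * f) x = P * tr N l f x := by
  subst hk
  exact tr_mul_of_one hP f x

/-- the translates of the separating form are pairwise distinct functions. -/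
lemma tr_sepForm_injective :
    Function.Injective (fun x : CosetX N => tr N 12 (sepForm N) x) := by
  intro x y h
  induction x using QuotientGroup.induction_on with
  | H a =>
    induction y using QuotientGroup.induction_on with
    | H b =>
      simp only at h
      rw [(sepForm_isMF N).tr_mk, (sepForm_isMF N).tr_mk] at h
      have h2 : sepForm N ∣[(12 : ℤ)] (a⁻¹ * b) = sepForm N := by
        rw [SlashAction.slash_mul, h, ← SlashAction.slash_mul, inv_mul_cancel,
          SlashAction.slash_one]
      exact QuotientGroup.eq.mpr (sepForm_separates N _ h2)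

/-- Vandermonde: powers of pairwise distinct numbers are linearly independent. -/
lemma linearIndependent_pow_of_injective {X : Type} [Fintype X] (t : X → ℂ)
    (ht : Function.Injective t) :
    LinearIndependent ℂ (fun l : Fin (Fintype.card X) => fun x : X => t x ^ (l : ℕ)) := by
  rw [Fintype.linearIndependent_iff]
  intro c hc
  have e := (Fintype.equivFin X).symm
  have key : c = 0 := by
    apply Matrix.eq_zero_of_forall_index_sum_mul_pow_eq_zero (f := fun i => t (e i))
      (ht.comp e.injective)
    intro j
    have := congrFun hc (e j)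
    simpa [Finset.sum_apply, Pi.smul_apply, smul_eq_mul] using this
  intro l
  rw [key]
  rfl

/-- a point where finitely many pairwise distinct holomorphic functions take pairwise distinct
values. -/
lemma exists_point_injective {X : Type} [Finite X] (φ : X → ℍ → ℂ) (hφ : ∀ x, MDiff (φ x))
    (hinj : Function.Injective φ) : ∃ z₀ : ℍ, Function.Injective (fun x => φ x z₀) := by
  classical
  set U : Set ℂ := {z | 0 < z.im} with hU
  have hUo : IsOpen U := isOpen_lt continuous_const Complex.continuous_im
  have hUc : IsPreconnected U := (convex_halfSpace_im_gt 0).isPreconnected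
  have han : ∀ x, AnalyticOnNhd ℂ (φ x ∘ ofComplex) U := fun x =>
    (UpperHalfPlane.mdifferentiable_iff.mp (hφ x)).analyticOnNhd hUo
  have hne : ∀ p : X × X, ∀ᶠ z in codiscreteWithin U,
      p.1 ≠ p.2 → (φ p.1 ∘ ofComplex) z ≠ (φ p.2 ∘ ofComplex) z := by
    rintro ⟨x, y⟩
    by_cases hxy : x = y
    · exact Eventually.of_forall fun z h => absurd hxy h
    rcases (han x).eqOn_or_eventually_ne_of_preconnected (han y) hUc with h | h
    · exfalso
      apply hxy
      apply hinj
      funext τ
      have := h (show (τ : ℂ) ∈ U from τ.im_pos)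
      simpa [Function.comp_apply, ofComplex_apply] using this
    · exact h.mono fun z hz _ => hz
  have hall := (eventually_all.mpr hne).and (eventually_of_mem (self_mem_codiscreteWithin U)
    fun z hz => hz)
  have hI : (Complex.I : ℂ) ∈ U := by simp [hU]
  have hmem := mem_codiscreteWithin.mp hall Complex.I hI
  -- the bad set is disjoint from a punctured neighbourhood of `I`
  rw [disjoint_principal_right] at hmem
  have hU' : U ∈ 𝓝[≠] (Complex.I : ℂ) := mem_nhdsWithin_of_mem_nhds (hUo.mem_nhds hI)
  obtain ⟨z, hz⟩ := Filter.nonempty_of_mem (f := 𝓝[≠] (Complex.I : ℂ)) (Filter.inter_mem hmem hU')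
  obtain ⟨hz1, hz2⟩ := hz
  have hz3 : z ∈ {z | (∀ p : X × X, p.1 ≠ p.2 → (φ p.1 ∘ ofComplex) z ≠ (φ p.2 ∘ ofComplex) z) ∧
      z ∈ U} := by
    by_contra hcon
    exact hz1 ⟨hz2, hcon⟩
  refine ⟨⟨z, hz2⟩, fun x y hxy => ?_⟩
  by_contra hne'
  apply hz3.1 (x, y) hne'
  simp only [Function.comp_apply]
  rw [ofComplex_apply_of_im_pos hz2]
  exact hxy

end GensRankAux

namespace Gens

variable {N : ℕ} [NeZero N] (𝔊 : Gens N)

open GensRankAux

/-! ### (G3) rank -/

lemma finite_J : Finite 𝔊.J :=
  (𝔊.linearIndependent_vec UpperHalfPlane.I).finite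

lemma card_J_le : Nat.card 𝔊.J ≤ Nat.card (CosetX N) := by
  have := 𝔊.finite_J
  letI : Fintype 𝔊.J := Fintype.ofFinite _
  letI : Fintype (CosetX N) := Fintype.ofFinite _
  have h := (𝔊.linearIndependent_vec UpperHalfPlane.I).fintype_card_le_finrank
  rw [Module.finrank_fintype_fun_eq_card] at h
  rwa [Nat.card_eq_fintype_card, Nat.card_eq_fintype_card]

/-- the evaluation vector of any modular form lies in the span of the `vec j z`. -/
lemma ev_mem_span {k : ℤ} {f : ℍ → ℂ} (hf : IsMF N k f) (z : ℍ) :
    (fun x : CosetX N => tr N k f x z) ∈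
      Submodule.span ℂ (Set.range (fun j => 𝔊.vec j z)) := by
  obtain ⟨s, P, hP, rfl⟩ := 𝔊.gen k f hf
  have : (fun x : CosetX N => tr N k (∑ j ∈ s, P j * 𝔊.F j) x z)
      = ∑ j ∈ s, P j z • 𝔊.vec j z := by
    funext x
    rw [tr_sum, Finset.sum_apply, Finset.sum_apply]
    refine Finset.sum_congr rfl fun j hj => ?_
    rw [tr_mul_of_one' (show k - 𝔊.κ j + 𝔊.κ j = k by ring) (hP j hj)]
    simp [vec]
  rw [this]
  exact Submodule.sum_mem _ fun j _ =>
    Submodule.smul_mem _ _ (Submodule.subset_span ⟨j, rfl⟩)

/-- `|J| = n`.  (≥): take the separating form `f₀` (Separating.lean); its translates `tr N 12 f₀ x` are pairwise distinct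
functions; pick a generic `z₀` where their values are pairwise distinct; with monomials `G_l` of weight `K - 12 l`
the vectors `ev(G_l f₀^l)`, `l < n`, form a Vandermonde system, so evaluation `M_K(Γ₀(N)) → ℂ^X` is onto; but its image lies
in the span of the `vec j z₀`. -/
lemma card_J : Nat.card 𝔊.J = Nat.card (CosetX N) := by
  refine le_antisymm 𝔊.card_J_le ?_
  have := 𝔊.finite_J
  letI : Fintype 𝔊.J := Fintype.ofFinite _
  letI : Fintype (CosetX N) := Fintype.ofFinite _
  obtain ⟨z₀, hz₀⟩ := exists_point_injective (fun x : CosetX N => tr N 12 (sepForm N) x)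
    (fun x => (sepForm_isMF N).tr_holo x) tr_sepForm_injective
  have hli := linearIndependent_pow_of_injective _ hz₀
  have hspan : Submodule.span ℂ (Set.range
      (fun l : Fin (Fintype.card (CosetX N)) => fun x : CosetX N =>
        (tr N 12 (sepForm N) x z₀) ^ (l : ℕ)))
      ≤ Submodule.span ℂ (Set.range (fun j => 𝔊.vec j z₀)) := by
    rw [Submodule.span_le]
    rintro _ ⟨l, rfl⟩
    have h1 := 𝔊.ev_mem_span (isMF_pow (sepForm_isMF N) (l : ℕ)) z₀
    have h2 : (fun x : CosetX N => tr N ((l : ℕ) * 12) (sepForm N ^ (l : ℕ)) x z₀)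
        = fun x : CosetX N => (tr N 12 (sepForm N) x z₀) ^ (l : ℕ) := by
      funext x
      rw [tr_pow]
      rfl
    rw [h2] at h1
    exact h1
  have h3 := Submodule.finrank_mono hspan
  rw [finrank_span_eq_card hli, finrank_span_eq_card (𝔊.linearIndependent_vec z₀),
    Fintype.card_fin] at h3
  rwa [Nat.card_eq_fintype_card, Nat.card_eq_fintype_card]

end Gens

end Fermat.Agent.S20
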