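/-
S20 core (G4): counts of the generator weights mod 4 and mod 6.
All four identities are proved here (helper46), modulo the earlier S20 files they cite.
Notation: `X = CosetX N = SL(2,ℤ) ⧸ Γ₀(N)`, `n = |X|`, `tr N k f x` = translate of `f` (Basics.lean),
`(tr N k f x) ∣[k] g = tr N k f (g⁻¹ • x)` (`IsMF.tr_slash`).
-/
import Fermat.Agent.S20.GensRank

set_option autoImplicit false
set_option linter.unusedSectionVars false

namespace Fermat.Agent.S20

open UpperHalfPlane hiding I
open ModularForm CongruenceSubgroup Filter Topology Complex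
open scoped MatrixGroups ModularForm Manifold Real

local notation "Δ" => ModularForm.discriminant

namespace GensCountAux

/-- Abstract counting: a linearly independent family of `dim V` vectors, each lying in one of finitely many
subspaces whose dimensions add up to `dim V`, has exactly `dim E i` members in class `i`. -/
lemma card_class_eq_finrank {V : Type} [AddCommGroup V] [Module ℂ V] [FiniteDimensional ℂ V]
    {J : Type} [Finite J] {ι : Type} [Fintype ι] [DecidableEq ι] (v : J → V)
    (hv : LinearIndependent ℂ v) (c : J → ι) (E : ι → Submodule ℂ V)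
    (hmem : ∀ j, v j ∈ E (c j))
    (hsum : ∑ i, Module.finrank ℂ (E i) = Nat.card J) (i : ι) :
    Nat.card {j : J // c j = i} = Module.finrank ℂ (E i) := by
  classical
  have : Fintype J := Fintype.ofFinite J
  have hle : ∀ i, Nat.card {j : J // c j = i} ≤ Module.finrank ℂ (E i) := by
    intro i
    let w : {j : J // c j = i} → E i := fun j => ⟨v j.1, by
      have h := hmem j.1
      rwa [j.2] at h⟩
    have hw : LinearIndependent ℂ w := by
      apply LinearIndependent.of_comp (E i).subtype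
      exact hv.comp (fun j : {j : J // c j = i} => j.1) Subtype.val_injective
    rw [Nat.card_eq_fintype_card]
    exact hw.fintype_card_le_finrank
  have htot : ∑ i, Nat.card {j : J // c j = i} = Nat.card J := by
    rw [Nat.card_eq_fintype_card, ← Finset.card_univ,
      Finset.card_eq_sum_card_fiberwise (f := c) (s := Finset.univ) (t := Finset.univ)
        (fun _ _ => Finset.mem_univ _)]
    refine Finset.sum_congr rfl fun i _ => ?_
    rw [Nat.card_eq_fintype_card, Fintype.card_subtype]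
  have := (Finset.sum_eq_sum_iff_of_le (fun i _ => hle i)).mp (htot.trans hsum.symm)
  exact this i (Finset.mem_univ i)

lemma I_zpow_four : (Complex.I : ℂ) ^ (4 : ℤ) = 1 := by
  have : (Complex.I : ℂ) ^ (4 : ℤ) = Complex.I ^ (4 : ℕ) := by norm_cast
  rw [this, Complex.I_pow_four]

lemma I_zpow_neg_of_four_dvd {k : ℤ} (h : (4 : ℤ) ∣ k) : Complex.I ^ (-k) = 1 := by
  obtain ⟨t, rfl⟩ := h
  rw [← mul_neg, zpow_mul, I_zpow_four, one_zpow]

lemma I_zpow_neg_of_even_not_four_dvd {k : ℤ} (he : Even k) (h : ¬ (4 : ℤ) ∣ k) :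
    Complex.I ^ (-k) = -1 := by
  obtain ⟨r, hr⟩ := he
  have hodd : Odd r := by
    rcases Int.even_or_odd r with ⟨s, hs⟩ | ho
    · exact absurd ⟨s, by rw [hr, hs]; ring⟩ h
    · exact ho
  obtain ⟨s, hs⟩ := hodd
  have hk : -k = 4 * (-s - 1) + 2 := by rw [hr, hs]; ring
  rw [hk, zpow_add₀ Complex.I_ne_zero, zpow_mul, I_zpow_four, one_zpow, one_mul]
  have : (Complex.I : ℂ) ^ (2 : ℤ) = Complex.I ^ (2 : ℕ) := by norm_cast
  rw [this, Complex.I_sq]

/-- fixed points of `g⁻¹` as a permutation = fixed points of `g`. -/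
lemma card_fixed_toPerm_inv {G X : Type} [Group G] [MulAction G X] (g : G) :
    Nat.card {x : X // (MulAction.toPerm g⁻¹ : Equiv.Perm X) x = x} =
      Nat.card (MulAction.fixedBy X g) := by
  refine Nat.card_congr (Equiv.subtypeEquivRight fun x => ?_)
  simp only [MulAction.toPerm_apply, MulAction.mem_fixedBy]
  rw [inv_smul_eq_iff, eq_comm]

end GensCountAux

namespace Gens

open GensCountAux

variable {N : ℕ} [NeZero N] (𝔊 : Gens N)

/-! ### (G4) counts at the elliptic points -/

lemma two_mul_card_four_dvd :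
    2 * Nat.card {j : 𝔊.J // (4 : ℤ) ∣ 𝔊.κ j} = Nat.card (CosetX N) + ModularCurve.nuTwo N := by
  classical
  have : Finite 𝔊.J := 𝔊.finite_J
  let _ : Fintype (CosetX N) := Fintype.ofFinite _
  let c : 𝔊.J → Fin 2 := fun j => if (4 : ℤ) ∣ 𝔊.κ j then 0 else 1
  let E : Fin 2 → Submodule ℂ (CosetX N → ℂ) :=
    ![permEigen (permS N) 1, permEigen (permS N) (-1)]
  have hmem : ∀ j, 𝔊.vec j UpperHalfPlane.I ∈ E (c j) := by
    intro j
    have h := 𝔊.vec_I_mem_permEigen j
    by_cases h4 : (4 : ℤ) ∣ 𝔊.κ j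
    · have hc : c j = 0 := if_pos h4
      rw [hc]
      rw [I_zpow_neg_of_four_dvd h4] at h
      exact h
    · have hc : c j = 1 := if_neg h4
      rw [hc]
      rw [I_zpow_neg_of_even_not_four_dvd (𝔊.κ_even j) h4] at h
      exact h
  have h1 := finrank_permEigen_two_one (permS N) (permS_mul_self (N := N))
  have h2 := finrank_permEigen_two_neg_one (permS N) (permS_mul_self (N := N))
  rw [← Nat.card_eq_fintype_card, ← Nat.card_eq_fintype_card] at h1 h2
  have hfix : Nat.card {x : CosetX N // (permS N) x = x} = ModularCurve.nuTwo N := by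
    rw [← card_fixedBy_S N]
    exact card_fixed_toPerm_inv ModularGroup.S
  rw [hfix] at h1 h2
  have hsum : ∑ i, Module.finrank ℂ (E i) = Nat.card 𝔊.J := by
    rw [Fin.sum_univ_two, 𝔊.card_J]
    have e0 : Module.finrank ℂ (E 0) = Module.finrank ℂ (permEigen (permS N) 1) := rfl
    have e1 : Module.finrank ℂ (E 1) = Module.finrank ℂ (permEigen (permS N) (-1)) := rfl
    rw [e0, e1]
    clear_value E c
    omega
  have key := card_class_eq_finrank (fun j => 𝔊.vec j UpperHalfPlane.I)
    𝔊.linearIndependent_vec_I c E hmem hsum 0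
  have hcongr : Nat.card {j : 𝔊.J // (4 : ℤ) ∣ 𝔊.κ j} = Nat.card {j : 𝔊.J // c j = 0} := by
    refine Nat.card_congr (Equiv.subtypeEquivRight fun j => ?_)
    simp only [c]
    split_ifs with h <;> simp [h]
  rw [hcongr, key]
  exact h1

/-! the point `ρ` -/

section rho

/-- `d = denom (S*T) ρ = ρ + 1`, a primitive sixth root of unity. -/
noncomputable def dRho : ℂ := denom (ModularGroup.S * ModularGroup.T) ellRho

lemma dRho_eq : dRho ^ 2 - dRho + 1 = 0 := denom_ST_ellRho

lemma dRho_ne_zero : dRho ≠ 0 := by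
  intro h
  have := dRho_eq
  rw [h] at this
  norm_num at this

lemma dRho_pow_three : dRho ^ 3 = -1 := by
  linear_combination (dRho + 1) * dRho_eq

lemma dRho_zpow_six : dRho ^ (6 : ℤ) = 1 := by
  have : dRho ^ (6 : ℤ) = dRho ^ (6 : ℕ) := by norm_cast
  rw [this, show (6 : ℕ) = 3 * 2 from rfl, pow_mul, dRho_pow_three]
  norm_num

lemma dRho_zpow_neg_two : dRho ^ (-2 : ℤ) = -dRho := by
  have h6 := dRho_zpow_six
  have h4 : dRho ^ (-2 : ℤ) = dRho ^ (6 : ℤ) * dRho ^ (-2 : ℤ) := by rw [h6, one_mul]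
  rw [h4, ← zpow_add₀ dRho_ne_zero]
  have : dRho ^ ((6 : ℤ) + -2) = dRho ^ (4 : ℕ) := by norm_cast
  rw [this]
  linear_combination dRho * dRho_pow_three

lemma dRho_zpow_neg_four : dRho ^ (-4 : ℤ) = dRho - 1 := by
  have h6 := dRho_zpow_six
  have h4 : dRho ^ (-4 : ℤ) = dRho ^ (6 : ℤ) * dRho ^ (-4 : ℤ) := by rw [h6, one_mul]
  rw [h4, ← zpow_add₀ dRho_ne_zero]
  have : dRho ^ ((6 : ℤ) + -4) = dRho ^ (2 : ℕ) := by norm_cast
  rw [this]
  linear_combination dRho_eq

lemma dRho_zpow_neg (t r : ℤ) : dRho ^ (-(6 * t + r)) = dRho ^ (-r) := by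
  rw [neg_add, zpow_add₀ dRho_ne_zero, ← mul_neg, zpow_mul, dRho_zpow_six, one_zpow, one_mul]

end rho

/-- the class of a weight mod 6 -/
noncomputable def cls6 (k : ℤ) : Fin 3 :=
  if (6 : ℤ) ∣ k then 0 else if k % 6 = 2 then 1 else 2

/-- the eigenvalue attached to a class -/
noncomputable def eig6 : Fin 3 → ℂ := ![1, -dRho, dRho - 1]

lemma zpow_neg_eq_eig6 {k : ℤ} (he : Even k) : dRho ^ (-k) = eig6 (cls6 k) := by
  have hk := Int.emod_add_mul_ediv k 6
  have h0 := Int.emod_nonneg k (show (6 : ℤ) ≠ 0 by norm_num)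
  have h6 := Int.emod_lt_of_pos k (show (0 : ℤ) < 6 by norm_num)
  obtain ⟨r, hr⟩ := he
  have hcases : k % 6 = 0 ∨ k % 6 = 2 ∨ k % 6 = 4 := by omega
  have hk' : k = 6 * (k / 6) + k % 6 := by omega
  rcases hcases with h | h | h
  · have hd : (6 : ℤ) ∣ k := Int.dvd_of_emod_eq_zero h
    rw [cls6, if_pos hd]
    rw [hk', dRho_zpow_neg, h]
    simp [eig6]
  · have hd : ¬ (6 : ℤ) ∣ k := fun hd => by
      have := Int.emod_eq_zero_of_dvd hd
      omega
    rw [cls6, if_neg hd, if_pos h]
    rw [hk', dRho_zpow_neg, h, dRho_zpow_neg_two]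
    simp [eig6]
  · have hd : ¬ (6 : ℤ) ∣ k := fun hd => by
      have := Int.emod_eq_zero_of_dvd hd
      omega
    have h2 : ¬ k % 6 = 2 := by omega
    rw [cls6, if_neg hd, if_neg h2]
    rw [hk', dRho_zpow_neg, h, dRho_zpow_neg_four]
    simp [eig6]

lemma card_cls6 (i : Fin 3) :
    Nat.card {j : 𝔊.J // cls6 (𝔊.κ j) = i} =
      Module.finrank ℂ (permEigen (permST N) (eig6 i)) := by
  classical
  have : Finite 𝔊.J := 𝔊.finite_J
  let _ : Fintype (CosetX N) := Fintype.ofFinite _
  let E : Fin 3 → Submodule ℂ (CosetX N → ℂ) := fun i => permEigen (permST N) (eig6 i)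
  have hmem : ∀ j, 𝔊.vec j ellRho ∈ E (cls6 (𝔊.κ j)) := by
    intro j
    have h := 𝔊.vec_ellRho_mem_permEigen j
    have e : denom (ModularGroup.S * ModularGroup.T) ellRho ^ (-𝔊.κ j) = eig6 (cls6 (𝔊.κ j)) :=
      zpow_neg_eq_eig6 (𝔊.κ_even j)
    rw [e] at h
    exact h
  have h1 := finrank_permEigen_three_one (permST N) (permST_pow_three (N := N))
  have h2 := finrank_permEigen_three_omega (permST N) (permST_pow_three (N := N)) (-dRho)
    (by linear_combination dRho_eq)
  have h3 := finrank_permEigen_three_omega (permST N) (permST_pow_three (N := N)) (dRho - 1)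
    (by linear_combination dRho_eq)
  rw [← Nat.card_eq_fintype_card, ← Nat.card_eq_fintype_card] at h1 h2 h3
  have hsum : ∑ i, Module.finrank ℂ (E i) = Nat.card 𝔊.J := by
    rw [Fin.sum_univ_three, 𝔊.card_J]
    have e0 : Module.finrank ℂ (E 0) = Module.finrank ℂ (permEigen (permST N) 1) := rfl
    have e1 : Module.finrank ℂ (E 1) = Module.finrank ℂ (permEigen (permST N) (-dRho)) := rfl
    have e2 : Module.finrank ℂ (E 2) = Module.finrank ℂ (permEigen (permST N) (dRho - 1)) := rfl
    rw [e0, e1, e2]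
    clear_value E
    omega
  exact card_class_eq_finrank (fun j => 𝔊.vec j ellRho)
    𝔊.linearIndependent_vec_ellRho (fun j => cls6 (𝔊.κ j)) E hmem hsum i

lemma card_fixed_permST :
    Nat.card {x : CosetX N // (permST N) x = x} = ModularCurve.nuThree N := by
  rw [← card_fixedBy_ST N]
  exact card_fixed_toPerm_inv (ModularGroup.S * ModularGroup.T)

lemma three_mul_card_six_dvd :
    3 * Nat.card {j : 𝔊.J // (6 : ℤ) ∣ 𝔊.κ j} =
      Nat.card (CosetX N) + 2 * ModularCurve.nuThree N := by
  classical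
  let _ : Fintype (CosetX N) := Fintype.ofFinite _
  have h1 := finrank_permEigen_three_one (permST N) (permST_pow_three (N := N))
  rw [← Nat.card_eq_fintype_card, ← Nat.card_eq_fintype_card, card_fixed_permST] at h1
  have hcongr : Nat.card {j : 𝔊.J // (6 : ℤ) ∣ 𝔊.κ j} =
      Nat.card {j : 𝔊.J // cls6 (𝔊.κ j) = 0} := by
    refine Nat.card_congr (Equiv.subtypeEquivRight fun j => ?_)
    simp only [cls6]
    split_ifs with h h' <;> simp [h]
  rw [hcongr, 𝔊.card_cls6 0]
  exact h1

lemma three_mul_card_mod_six_two :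
    3 * Nat.card {j : 𝔊.J // 𝔊.κ j % 6 = 2} + ModularCurve.nuThree N = Nat.card (CosetX N) := by
  classical
  let _ : Fintype (CosetX N) := Fintype.ofFinite _
  have h2 := finrank_permEigen_three_omega (permST N) (permST_pow_three (N := N)) (-dRho)
    (by linear_combination dRho_eq)
  rw [← Nat.card_eq_fintype_card, ← Nat.card_eq_fintype_card, card_fixed_permST] at h2
  have hcongr : Nat.card {j : 𝔊.J // 𝔊.κ j % 6 = 2} =
      Nat.card {j : 𝔊.J // cls6 (𝔊.κ j) = 1} := by
    refine Nat.card_congr (Equiv.subtypeEquivRight fun j => ?_)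
    simp only [cls6]
    split_ifs with h h'
    · have := Int.emod_eq_zero_of_dvd h
      simp; omega
    · simp [h']
    · simp [h']
  rw [hcongr, 𝔊.card_cls6 1]
  exact h2

lemma three_mul_card_mod_six_four :
    3 * Nat.card {j : 𝔊.J // 𝔊.κ j % 6 = 4} + ModularCurve.nuThree N = Nat.card (CosetX N) := by
  classical
  let _ : Fintype (CosetX N) := Fintype.ofFinite _
  have h3 := finrank_permEigen_three_omega (permST N) (permST_pow_three (N := N)) (dRho - 1)
    (by linear_combination dRho_eq)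
  rw [← Nat.card_eq_fintype_card, ← Nat.card_eq_fintype_card, card_fixed_permST] at h3
  have hcongr : Nat.card {j : 𝔊.J // 𝔊.κ j % 6 = 4} =
      Nat.card {j : 𝔊.J // cls6 (𝔊.κ j) = 2} := by
    refine Nat.card_congr (Equiv.subtypeEquivRight fun j => ?_)
    obtain ⟨r, hr⟩ := 𝔊.κ_even j
    simp only [cls6]
    split_ifs with h h'
    · have := Int.emod_eq_zero_of_dvd h
      simp; omega
    · simp; omega
    · have h0 : ¬ 𝔊.κ j % 6 = 0 := fun h0 => h (Int.dvd_of_emod_eq_zero h0)
      simp; omega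
  rw [hcongr, 𝔊.card_cls6 2]
  exact h3

end Gens

end Fermat.Agent.S20
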