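/-
S20, component (∞): twisted-periodic holomorphic functions bounded at `i∞` have a leading coefficient.
If `g(z+1) = e^{2πi t/w} g(z)`, `0 ≤ t < w`, then `F(z) = g(z) e^{2πi (1 - t/w) z}` is `1`-periodic,
holomorphic and tends to `0` at `i∞`, so its cusp function `K` is holomorphic on the unit disc with
`K(0) = 0`; `a = K'(0)` is the limit of `K(q)/q = g(z) e^{-2πi t z/w}`.  If `a = 0` then `K = O(q^2)`,
hence `g = O(q)`.
-/
import Mathlib.NumberTheory.ModularForms.QExpansion

set_option autoImplicit false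

namespace Fermat.Agent.S20

open UpperHalfPlane hiding I
open Filter Topology Asymptotics Complex Function
open scoped Manifold Real

/-- The auxiliary function `g z * exp ((2πi - c) z)`. -/
noncomputable def fourierTwistAux (g : ℍ → ℂ) (c : ℂ) : ℍ → ℂ :=
  fun z => g z * Complex.exp ((2 * π * I - c) * z)

lemma fourierTwistAux_mdiff {g : ℍ → ℂ} (hg : MDiff g) (c : ℂ) : MDiff (fourierTwistAux g c) := by
  have h1 : MDiff (fun z : ℍ => Complex.exp ((2 * π * I - c) * (z : ℂ))) := by
    rw [UpperHalfPlane.mdifferentiable_iff]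
    have : DifferentiableOn ℂ (fun z : ℂ => Complex.exp ((2 * π * I - c) * z)) {z | 0 < z.im} :=
      (differentiable_exp.comp (differentiable_id.const_mul _)).differentiableOn
    refine this.congr fun z hz => ?_
    simp [Function.comp, ofComplex_apply_of_im_pos hz]
  exact hg.mul h1

lemma fourierTwistAux_periodic {g : ℍ → ℂ} {c : ℂ}
    (hper : ∀ z : ℍ, g ((1 : ℝ) +ᵥ z) = Complex.exp c * g z) :
    Periodic (fourierTwistAux g c ∘ ofComplex) (1 : ℝ) := by
  intro z
  by_cases hz : 0 < z.im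
  · have hz1 : 0 < (z + (1 : ℝ)).im := by simpa using hz
    simp only [comp_apply, ofComplex_apply_of_im_pos hz1, ofComplex_apply_of_im_pos hz, fourierTwistAux]
    have e1 : (⟨z + (1 : ℝ), hz1⟩ : ℍ) = (1 : ℝ) +ᵥ (⟨z, hz⟩ : ℍ) := by
      ext; simp [add_comm]
    rw [e1, hper]
    have : (2 * π * I - c) * (z + (1 : ℝ)) = (2 * π * I - c) * z + 2 * π * I - c := by
      push_cast; ring
    rw [this, sub_eq_add_neg, Complex.exp_add, Complex.exp_add, Complex.exp_two_pi_mul_I,
      Complex.exp_neg]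
    have hc : cexp c ≠ 0 := Complex.exp_ne_zero c
    field_simp
  · have hz' : z.im ≤ 0 := not_lt.mp hz
    have hz1 : (z + (1 : ℝ)).im ≤ 0 := by simpa using hz'
    simp only [comp_apply, ofComplex_apply_of_im_nonpos hz1, ofComplex_apply_of_im_nonpos hz']

/-- `exp ((2πi - 2πi t / w) z)` tends to `0` at `i∞` when `t < w`. -/
lemma fourier_tendsto_exp_twist {w t : ℕ} (ht : t < w) :
    Tendsto (fun z : ℍ => Complex.exp ((2 * π * I - 2 * π * I * t / w) * z)) atImInfty (𝓝 0) := by
  have hw : (0 : ℝ) < w := by exact_mod_cast (Nat.zero_le t).trans_lt ht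
  have htw : (0 : ℝ) < (w : ℝ) - t := by
    have : (t : ℝ) < w := by exact_mod_cast ht
    linarith
  have hh : (0 : ℝ) < (w : ℝ) / ((w : ℝ) - t) := div_pos hw htw
  refine (qParam_tendsto_atImInfty hh).congr fun z => ?_
  simp only [Periodic.qParam]
  congr 1
  have hw' : (w : ℂ) ≠ 0 := by exact_mod_cast hw.ne'
  have htw' : (w : ℂ) - t ≠ 0 := by exact_mod_cast htw.ne'
  push_cast
  field_simp

lemma fourierTwistAux_isZeroAtImInfty {g : ℍ → ℂ} (hb : IsBoundedAtImInfty g) {w t : ℕ} (ht : t < w) :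
    IsZeroAtImInfty (fourierTwistAux g (2 * π * I * t / w)) := by
  have h1 := fourier_tendsto_exp_twist ht
  have h2 : IsBoundedUnder (· ≤ ·) atImInfty (norm ∘ g) := by
    have := hb
    unfold IsBoundedAtImInfty BoundedAtFilter at this
    exact this.isBoundedUnder_le
  exact isBoundedUnder_le_mul_tendsto_zero h2 h1

theorem exists_tendsto_twisted {g : ℍ → ℂ} (hg : MDiff g) (hb : IsBoundedAtImInfty g) {w t : ℕ}
    (ht : t < w)
    (hper : ∀ z : ℍ, g ((1 : ℝ) +ᵥ z) = Complex.exp (2 * π * I * t / w) * g z) :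
    ∃ a : ℂ, Tendsto (fun z : ℍ => g z * Complex.exp (-(2 * π * I * t / w) * z)) atImInfty (𝓝 a) ∧
      (a = 0 → g =O[atImInfty] (fun z : ℍ => Complex.exp (2 * π * I * z))) := by
  set c : ℂ := 2 * π * I * t / w with hc
  set F : ℍ → ℂ := fourierTwistAux g c with hF
  have hFper : Periodic (F ∘ ofComplex) (1 : ℝ) := fourierTwistAux_periodic hper
  have hFhol : MDiff F := fourierTwistAux_mdiff hg c
  have hFzero : IsZeroAtImInfty F := fourierTwistAux_isZeroAtImInfty hb ht
  have hFbdd : IsBoundedAtImInfty F := hFzero.isBoundedAtImInfty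
  set K : ℂ → ℂ := cuspFunction 1 F with hK
  have hKdiff : ∀ q : ℂ, ‖q‖ < 1 → DifferentiableAt ℂ K q := fun q hq =>
    differentiableAt_cuspFunction one_pos hFper hFhol hFbdd hq
  have hK0 : K 0 = 0 := UpperHalfPlane.IsZeroAtImInfty.cuspFunction_apply_zero hFzero one_pos
  have hKq : ∀ z : ℍ, K (Periodic.qParam 1 z) = F z := fun z =>
    eq_cuspFunction z one_ne_zero hFper
  have hqexp : ∀ z : ℍ, Periodic.qParam 1 (z : ℂ) = Complex.exp (2 * π * I * z) := fun z => by
    simp [Periodic.qParam]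
  have hqtend : Tendsto (fun z : ℍ => Periodic.qParam 1 (z : ℂ)) atImInfty (𝓝[≠] 0) :=
    (Periodic.qParam_tendsto one_pos).comp tendsto_coe_atImInfty
  have hgF : ∀ z : ℍ, g z * Complex.exp (-c * z) = (Periodic.qParam 1 (z : ℂ))⁻¹ * F z := by
    intro z
    rw [hqexp, hF, fourierTwistAux, ← Complex.exp_neg, mul_left_comm, ← Complex.exp_add]
    congr 2
    ring
  refine ⟨deriv K 0, ?_, ?_⟩
  · have hd : HasDerivAt K (deriv K 0) 0 := (hKdiff 0 (by simp)).hasDerivAt
    have hs := (hasDerivAt_iff_tendsto_slope.mp hd).comp hqtend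
    refine hs.congr fun z => ?_
    simp only [comp_apply, slope, sub_zero, vsub_eq_sub, hK0, smul_eq_mul, hKq]
    exact (hgF z).symm
  · intro ha
    -- `K = O(q ^ 2)` near `0`
    have hball : Metric.ball (0 : ℂ) 1 ∈ 𝓝 (0 : ℂ) := Metric.ball_mem_nhds _ one_pos
    have hKon : DifferentiableOn ℂ K (Metric.ball 0 1) := fun q hq =>
      (hKdiff q (by simpa using hq)).differentiableWithinAt
    have hG : DifferentiableAt ℂ (dslope K 0) 0 :=
      ((Complex.differentiableOn_dslope hball).mpr hKon).differentiableAt hball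
    have hG0 : dslope K 0 0 = 0 := by rw [dslope_same, ha]
    have hGO : (dslope K 0) =O[𝓝 0] (fun q : ℂ => q) := by
      have := hG.isBigO_sub
      simpa [hG0, ha] using this
    have hKO : K =O[𝓝 0] (fun q : ℂ => q * q) := by
      have hKeq : K = fun q => q * dslope K 0 q := by
        funext q
        have := sub_smul_dslope K 0 q
        simpa [hK0] using this.symm
      rw [hKeq]
      exact (isBigO_refl _ _).mul hGO
    have hFO : F =O[atImInfty] (fun z : ℍ => Periodic.qParam 1 (z : ℂ) * Periodic.qParam 1 (z : ℂ)) := by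
      have := hKO.comp_tendsto (hqtend.mono_right nhdsWithin_le_nhds)
      refine this.congr_left fun z => ?_
      simp [hKq]
    -- now transfer to `g`
    have hgeq : ∀ z : ℍ, g z = F z * Complex.exp (-(2 * π * I - c) * z) := by
      intro z
      rw [hF, fourierTwistAux, mul_assoc, ← Complex.exp_add]
      have : (2 * π * I - c) * (z : ℂ) + -(2 * π * I - c) * z = 0 := by ring
      rw [this, Complex.exp_zero, mul_one]
    have hbound : ∀ z : ℍ, ‖Complex.exp (-(2 * π * I - c) * z)‖ * ‖Periodic.qParam 1 (z : ℂ)‖ ≤ 1 := by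
      intro z
      rw [hqexp, ← norm_mul, ← Complex.exp_add, Complex.norm_exp]
      have : (-(2 * π * I - c) * z + 2 * π * I * z).re = - (2 * π * t / w) * z.im := by
        rw [hc]
        have : -(2 * π * I - 2 * π * I * t / w) * (z : ℂ) + 2 * π * I * z
            = (((2 * π * t / w : ℝ) : ℂ) * I) * z := by
          push_cast; ring
        rw [this]
        simp [Complex.mul_re]
      rw [this]
      rw [Real.exp_le_one_iff]
      have : 0 ≤ 2 * π * (t : ℝ) / w * z.im :=
        mul_nonneg (by positivity) z.im_pos.le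
      linarith
    rw [isBigO_iff] at hFO ⊢
    obtain ⟨C, hC⟩ := hFO
    refine ⟨|C|, ?_⟩
    filter_upwards [hC] with z hz
    rw [hgeq z, norm_mul, ← hqexp]
    rw [norm_mul] at hz
    have hq0 : 0 ≤ ‖Periodic.qParam 1 (z : ℂ)‖ := norm_nonneg _
    calc ‖F z‖ * ‖Complex.exp (-(2 * π * I - c) * z)‖
        ≤ (C * (‖Periodic.qParam 1 (z : ℂ)‖ * ‖Periodic.qParam 1 (z : ℂ)‖)) *
            ‖Complex.exp (-(2 * π * I - c) * z)‖ :=
          mul_le_mul_of_nonneg_right hz (norm_nonneg _)
      _ = C * ‖Periodic.qParam 1 (z : ℂ)‖ *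
            (‖Complex.exp (-(2 * π * I - c) * z)‖ * ‖Periodic.qParam 1 (z : ℂ)‖) := by ring
      _ ≤ |C| * ‖Periodic.qParam 1 (z : ℂ)‖ * 1 := by
          refine mul_le_mul ?_ (hbound z) (by positivity) (by positivity)
          exact mul_le_mul_of_nonneg_right (le_abs_self C) hq0
      _ = |C| * ‖Periodic.qParam 1 (z : ℂ)‖ := by ring

end Fermat.Agent.S20
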