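/-
S20, component (∞-abs): leading coefficients at `i∞` of a family of functions permuted by `z ↦ z + 1`.
Setting: `X` finite, `τ` a permutation of `X`, families `f : X → ℍ → ℂ` with each `f x` holomorphic, bounded at `i∞`,
and `f x (z + 1) = f (τ x) z`.  On a `τ`-orbit of size `w` with base point `x₀`, the twisted sums
`g_t(z) = ∑_{s < w} ζ_w^{-t s} f (τ^s x₀) z` satisfy `g_t(z+1) = ζ_w^t g_t(z)`, so (Fourier.lean)
`g_t(z) e^{-2πi t z / w} → a_{x₀,t}`; `L f` collects the `a_{x₀,t}` (`t < w`, one base point per orbit; reindex by `X`).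
The matrix `(f_j x z)` is `(g-matrix) * (constant invertible block-DFT matrix)`, column `(x₀,t)` of the `g`-matrix
is `e^{2πi t z / w} (a + o(1))`, and `∑ t / w = (n - c)/2`.
-/
import Mathlib.NumberTheory.ModularForms.Discriminant
import Mathlib.LinearAlgebra.Matrix.NonsingularInverse
import Mathlib.GroupTheory.GroupAction.Quotient
import Mathlib.Topology.Instances.Matrix
import Fermat.Agent.S20.Fourier
import Fermat.Agent.S20.CuspFamily.DFT

set_option autoImplicit false

namespace Fermat.Agent.S20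

open UpperHalfPlane hiding I
open Filter Topology Asymptotics Complex
open scoped Manifold Real

variable {X : Type} [Fintype X] [DecidableEq X]

/-- families `(f_x)` of holomorphic functions, bounded at `i∞`, with `f_x(z+1) = f_{τ x}(z)`. -/
def CuspFamily (τ : Equiv.Perm X) : Submodule ℂ (X → ℍ → ℂ) where
  carrier := {f | ∀ x, MDiff (f x) ∧ IsBoundedAtImInfty (f x) ∧
    ∀ z : ℍ, f x ((1 : ℝ) +ᵥ z) = f (τ x) z}
  add_mem' := by
    intro a b ha hb x
    refine ⟨(ha x).1.add (hb x).1, (ha x).2.1.add (hb x).2.1, fun z => ?_⟩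
    simp [(ha x).2.2 z, (hb x).2.2 z]
  zero_mem' := by
    intro x
    refine ⟨mdifferentiable_const, ?_, fun z => rfl⟩
    exact (zero_form_isBoundedAtImInfty : IsBoundedAtImInfty (0 : ℍ → ℂ))
  smul_mem' := by
    intro c a ha x
    refine ⟨(ha x).1.const_smul c, (ha x).2.1.const_smul_left c, fun z => ?_⟩
    simp [(ha x).2.2 z]

/-- the number of orbits (cycles, including fixed points) of `τ` on `X`. -/
noncomputable def numOrbits (τ : Equiv.Perm X) : ℕ :=
  Nat.card (MulAction.orbitRel.Quotient (Subgroup.zpowers τ) X)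

section Proof

variable (τ : Equiv.Perm X)

/-- The twisted sums `g_y(z) = ∑_x f_x(z) D_{x,y}`. -/
noncomputable def cfG (f : X → ℍ → ℂ) (y : X) : ℍ → ℂ := fun z => ∑ x, f x z * cfD τ x y

/-- The exponent `2πi t / w` attached to the index `y`. -/
noncomputable def cfExpo (y : X) : ℂ := 2 * π * I * (cfIdx τ y : ℕ) / (cfPeriod τ y : ℕ)

/-- The normalised twisted sums `g_y(z) e^{-2πi t z / w}`. -/
noncomputable def cfA (f : X → ℍ → ℂ) (y : X) : ℍ → ℂ :=
  fun z => cfG τ f y z * Complex.exp (-(cfExpo τ y) * z)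

/-- The leading coefficient. -/
noncomputable def cfL (f : X → ℍ → ℂ) (y : X) : ℂ := limUnder atImInfty (cfA τ f y)

lemma cfG_mdiff (f : CuspFamily τ) (y : X) : MDiff (cfG τ f.1 y) := by
  have h : cfG τ f.1 y = ∑ x, (fun z => f.1 x z * cfD τ x y) := by
    funext z; simp [cfG]
  rw [h]
  refine MDifferentiable.sum fun x _ => ?_
  exact (f.2 x).1.mul mdifferentiable_const

lemma cfG_bdd (f : CuspFamily τ) (y : X) : IsBoundedAtImInfty (cfG τ f.1 y) := by
  have h : cfG τ f.1 y = ∑ x, (fun z => f.1 x z * cfD τ x y) := by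
    funext z; simp [cfG]
  rw [h]
  unfold IsBoundedAtImInfty BoundedAtFilter
  refine IsBigO.sum fun x _ => ?_
  have h1 : BoundedAtFilter atImInfty (f.1 x) := (f.2 x).2.1
  have h2 : BoundedAtFilter atImInfty (fun _ : ℍ => cfD τ x y) := const_boundedAtFilter _ _
  exact h1.mul h2

lemma cfPhase_eq_exp_cfExpo (y : X) :
    cfPhase (cfIdx τ y : ℤ) (cfPeriod τ y) = Complex.exp (cfExpo τ y) := by
  unfold cfPhase cfExpo
  push_cast
  rfl

lemma cfG_twist (f : CuspFamily τ) (y : X) (z : ℍ) :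
    cfG τ f.1 y ((1 : ℝ) +ᵥ z) =
      Complex.exp (2 * π * I * (cfIdx τ y : ℕ) / (cfPeriod τ y : ℕ)) * cfG τ f.1 y z := by
  have hexp : Complex.exp (2 * π * I * (cfIdx τ y : ℕ) / (cfPeriod τ y : ℕ)) =
      cfPhase (cfIdx τ y : ℤ) (cfPeriod τ y) := (cfPhase_eq_exp_cfExpo τ y).symm
  rw [hexp]
  unfold cfG
  simp_rw [(f.2 _).2.2 z]
  rw [Finset.mul_sum]
  rw [← Equiv.sum_comp τ (fun x => cfPhase (cfIdx τ y : ℤ) (cfPeriod τ y) * (f.1 x z * cfD τ x y))]
  refine Finset.sum_congr rfl fun x _ => ?_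
  have hPP : cfPhase (cfIdx τ y : ℤ) (cfPeriod τ y) * cfPhase (-(cfIdx τ y : ℤ)) (cfPeriod τ y) = 1 := by
    rw [← cfPhase_add, add_neg_cancel, cfPhase_zero]
  rw [cfD_apply_perm]
  linear_combination (-(f.1 (τ x) z * cfD τ x y)) * hPP

lemma cfA_exists (f : CuspFamily τ) (y : X) :
    ∃ a : ℂ, Tendsto (cfA τ f.1 y) atImInfty (𝓝 a) ∧
      (a = 0 → cfG τ f.1 y =O[atImInfty] (fun z : ℍ => Complex.exp (2 * π * I * z))) :=
  exists_tendsto_twisted (cfG_mdiff τ f y) (cfG_bdd τ f y) (cfIdx_lt τ y) (cfG_twist τ f y)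

lemma cfA_tendsto (f : CuspFamily τ) (y : X) :
    Tendsto (cfA τ f.1 y) atImInfty (𝓝 (cfL τ f.1 y)) := by
  obtain ⟨a, ha, -⟩ := cfA_exists τ f y
  have : cfL τ f.1 y = a := ha.limUnder_eq
  rw [this]
  exact ha

lemma cfG_isBigO_of_cfL_eq_zero (f : CuspFamily τ) (y : X) (h : cfL τ f.1 y = 0) :
    cfG τ f.1 y =O[atImInfty] (fun z : ℍ => Complex.exp (2 * π * I * z)) := by
  obtain ⟨a, ha, ha0⟩ := cfA_exists τ f y
  have : cfL τ f.1 y = a := ha.limUnder_eq
  exact ha0 (this ▸ h)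

/-- The leading-coefficient map as a linear map. -/
noncomputable def cfLin : CuspFamily τ →ₗ[ℂ] (X → ℂ) where
  toFun f := fun y => cfL τ f.1 y
  map_add' f g := by
    funext y
    have h1 := (cfA_tendsto τ f y).add (cfA_tendsto τ g y)
    have h2 := cfA_tendsto τ (f + g) y
    have e : cfA τ (f + g).1 y = fun z => cfA τ f.1 y z + cfA τ g.1 y z := by
      funext z
      simp [cfA, cfG, add_mul, Finset.sum_add_distrib]
    rw [e] at h2
    exact tendsto_nhds_unique h2 h1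
  map_smul' c f := by
    funext y
    have h1 := (cfA_tendsto τ f y).const_mul c
    have h2 := cfA_tendsto τ (c • f) y
    have e : cfA τ (c • f).1 y = fun z => c * cfA τ f.1 y z := by
      funext z
      simp only [cfA, cfG, Submodule.coe_smul, Pi.smul_apply, smul_eq_mul]
      rw [← mul_assoc, Finset.mul_sum]
      congr 1
      refine Finset.sum_congr rfl fun x _ => ?_
      ring
    rw [e] at h2
    exact tendsto_nhds_unique h2 h1

lemma cfLin_apply (f : CuspFamily τ) (y : X) : cfLin τ f y = cfL τ f.1 y := rfl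

/-- Recovering the family from its twisted sums. -/
lemma cf_eq_sum_cfG (f : X → ℍ → ℂ) (x : X) (z : ℍ) :
    f x z = ∑ y, cfG τ f y z * cfD' τ y x := by
  have h := congrFun (Matrix.vecMul_vecMul (fun x => f x z) (cfD τ) (cfD' τ)) x
  rw [cfD_mul_cfD', Matrix.vecMul_one] at h
  rw [← h]
  simp only [Matrix.vecMul, dotProduct, cfG]

/-- (∞1) -/
lemma cf_isBigO_of_cfLin_eq_zero (f : CuspFamily τ) (h : cfLin τ f = 0) (x : X) :
    (f.1 x) =O[atImInfty] (fun z : ℍ => Complex.exp (2 * π * I * z)) := by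
  have h1 : f.1 x = fun z => ∑ y, cfG τ f.1 y z * cfD' τ y x := by
    funext z; exact cf_eq_sum_cfG τ f.1 x z
  rw [h1]
  refine IsBigO.fun_sum fun y _ => ?_
  have hy : cfL τ f.1 y = 0 := by
    have := congrFun h y
    simpa [cfLin_apply] using this
  have h2 := cfG_isBigO_of_cfL_eq_zero τ f y hy
  have h3 := h2.mul (isBigO_refl (fun _ : ℍ => cfD' τ y x) atImInfty)
  refine h3.trans ?_
  refine IsBigO.of_bound ‖cfD' τ y x‖ (Filter.Eventually.of_forall fun z => ?_)
  rw [norm_mul, mul_comm]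

/-- (∞2) -/
lemma cfLin_mul (f Pf : CuspFamily τ) (P : ℍ → ℂ) (p : ℂ) (hP : Tendsto P atImInfty (𝓝 p))
    (hPf : ∀ x, Pf.1 x = P * f.1 x) : cfLin τ Pf = p • cfLin τ f := by
  funext y
  have h1 := hP.mul (cfA_tendsto τ f y)
  have h2 := cfA_tendsto τ Pf y
  have e : cfA τ Pf.1 y = fun z => P z * cfA τ f.1 y z := by
    funext z
    simp only [cfA, cfG, hPf, Pi.mul_apply]
    rw [← mul_assoc, Finset.mul_sum]
    congr 1
    refine Finset.sum_congr rfl fun x _ => ?_
    ring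
  rw [e] at h2
  exact tendsto_nhds_unique h2 h1

/-- The matrix of values `(f_j x z)`. -/
noncomputable def cfM (f : X → CuspFamily τ) (z : ℍ) : Matrix X X ℂ :=
  Matrix.of fun j x => (f j).1 x z

/-- The matrix of normalised twisted sums. -/
noncomputable def cfAmat (f : X → CuspFamily τ) (z : ℍ) : Matrix X X ℂ :=
  Matrix.of fun j y => cfA τ (f j).1 y z

/-- The matrix of leading coefficients. -/
noncomputable def cfLmat (f : X → CuspFamily τ) : Matrix X X ℂ :=
  Matrix.of fun j y => cfLin τ (f j) y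

/-- The diagonal matrix of the exponentials `e^{2πi t z / w}`. -/
noncomputable def cfE (z : ℍ) : Matrix X X ℂ :=
  Matrix.diagonal fun y => Complex.exp (cfExpo τ y * z)

/-- The diagonal matrix of the exponentials `e^{-2πi t z / w}`. -/
noncomputable def cfE' (z : ℍ) : Matrix X X ℂ :=
  Matrix.diagonal fun y => Complex.exp (-(cfExpo τ y) * z)

lemma cfM_mul_cfD (f : X → CuspFamily τ) (z : ℍ) :
    cfM τ f z * cfD τ = cfAmat τ f z * cfE τ z := by
  ext j y
  rw [Matrix.mul_apply, cfE, Matrix.mul_diagonal]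
  simp only [cfM, cfAmat, Matrix.of_apply, cfA]
  rw [mul_assoc, ← Complex.exp_add]
  have : -cfExpo τ y * (z : ℂ) + cfExpo τ y * z = 0 := by ring
  rw [this, Complex.exp_zero, mul_one]
  rfl

lemma cfM_eq (f : X → CuspFamily τ) (z : ℍ) :
    cfM τ f z = cfAmat τ f z * cfE τ z * cfD' τ := by
  rw [← cfM_mul_cfD, Matrix.mul_assoc, cfD_mul_cfD', Matrix.mul_one]

lemma cfE_mul_cfE' (z : ℍ) : cfE τ z * cfE' τ z = 1 := by
  rw [cfE, cfE', Matrix.diagonal_mul_diagonal, ← Matrix.diagonal_one]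
  congr 1
  funext y
  rw [← Complex.exp_add]
  have : cfExpo τ y * (z : ℂ) + -cfExpo τ y * z = 0 := by ring
  rw [this, Complex.exp_zero]

lemma cfE_det_sq (z : ℍ) :
    (cfE τ z).det ^ 2 =
      Complex.exp ((2 * π * I * ((Fintype.card X : ℂ) - (numOrbits τ : ℂ))) * z) := by
  rw [cfE, Matrix.det_diagonal, ← Complex.exp_sum, ← Complex.exp_nat_mul]
  congr 1
  rw [← Finset.sum_mul]
  have h := cf_sum_idx_div_period τ
  have h2 : ∑ y, cfExpo τ y = 2 * π * I * ∑ y : X, ((cfIdx τ y : ℂ) / (cfPeriod τ y : ℂ)) := by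
    rw [Finset.mul_sum]
    refine Finset.sum_congr rfl fun y _ => ?_
    unfold cfExpo
    ring
  rw [h2, h]
  unfold numOrbits
  ring

lemma cfAmat_tendsto (f : X → CuspFamily τ) :
    Tendsto (cfAmat τ f) atImInfty (𝓝 (cfLmat τ f)) := by
  exact tendsto_pi_nhds.mpr fun j => tendsto_pi_nhds.mpr fun y => cfA_tendsto τ (f j) y

/-- (∞3) -/
lemma cf_det_tendsto (f : X → CuspFamily τ) :
    Tendsto (fun z : ℍ => (Matrix.det (Matrix.of fun j x => (f j).1 x z)) ^ 2 *
        Complex.exp (-(2 * π * I * ((Fintype.card X : ℂ) - (numOrbits τ : ℂ))) * z))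
      atImInfty (𝓝 (((cfD' τ).det ^ 2) * (Matrix.det (Matrix.of fun j y => cfLin τ (f j) y)) ^ 2)) := by
  have hdet : Tendsto (fun z => (cfAmat τ f z).det) atImInfty (𝓝 (cfLmat τ f).det) :=
    ((continuous_id.matrix_det).tendsto (cfLmat τ f)).comp (cfAmat_tendsto τ f)
  have h1 : Tendsto (fun z => ((cfD' τ).det ^ 2) * (cfAmat τ f z).det ^ 2) atImInfty
      (𝓝 (((cfD' τ).det ^ 2) * (cfLmat τ f).det ^ 2)) :=
    (hdet.pow 2).const_mul _
  refine h1.congr fun z => ?_
  have hM : (Matrix.of fun j x => (f j).1 x z : Matrix X X ℂ) = cfM τ f z := rfl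
  rw [hM, cfM_eq, Matrix.det_mul, Matrix.det_mul, mul_pow, mul_pow, cfE_det_sq]
  have hexp : Complex.exp ((2 * π * I * ((Fintype.card X : ℂ) - (numOrbits τ : ℂ))) * z) *
      Complex.exp (-(2 * π * I * ((Fintype.card X : ℂ) - (numOrbits τ : ℂ))) * z) = 1 := by
    rw [← Complex.exp_add]
    have : (2 * π * I * ((Fintype.card X : ℂ) - (numOrbits τ : ℂ))) * (z : ℂ) +
        -(2 * π * I * ((Fintype.card X : ℂ) - (numOrbits τ : ℂ))) * z = 0 := by ring
    rw [this, Complex.exp_zero]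
  linear_combination (-((cfD' τ).det ^ 2 * (cfAmat τ f z).det ^ 2)) * hexp

lemma cfM_inv (f : X → CuspFamily τ) (z : ℍ) :
    (cfM τ f z)⁻¹ = cfD τ * cfE' τ z * (cfAmat τ f z)⁻¹ := by
  rw [cfM_eq, Matrix.mul_inv_rev, Matrix.mul_inv_rev,
    Matrix.inv_eq_left_inv (cfD_mul_cfD' τ), Matrix.inv_eq_right_inv (cfE_mul_cfE' τ z),
    Matrix.mul_assoc]

lemma cfAmat_inv_tendsto (f : X → CuspFamily τ) (h : (cfLmat τ f).det ≠ 0) :
    Tendsto (fun z => (cfAmat τ f z)⁻¹) atImInfty (𝓝 (cfLmat τ f)⁻¹) := by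
  have hc : ContinuousAt Ring.inverse (cfLmat τ f).det := by
    have := NormedRing.inverse_continuousAt (Units.mk0 _ h)
    simpa using this
  exact (continuousAt_matrix_inv (cfLmat τ f) hc).tendsto.comp (cfAmat_tendsto τ f)

lemma cf_tendsto_exp_twist' {w t : ℕ} (ht : t < w) :
    Tendsto (fun z : ℍ => Complex.exp ((2 * π * I - 2 * π * I * t / w) * z)) atImInfty (𝓝 0) := by
  have hw : (0 : ℝ) < w := by exact_mod_cast (Nat.zero_le t).trans_lt ht
  have htw : (0 : ℝ) < (w : ℝ) - t := by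
    have : (t : ℝ) < w := by exact_mod_cast ht
    linarith
  have hh : (0 : ℝ) < (w : ℝ) / ((w : ℝ) - t) := div_pos hw htw
  refine (qParam_tendsto_atImInfty hh).congr fun z => ?_
  simp only [Function.Periodic.qParam]
  congr 1
  have hw' : (w : ℂ) ≠ 0 := by exact_mod_cast hw.ne'
  have htw' : (w : ℂ) - t ≠ 0 := by exact_mod_cast htw.ne'
  push_cast
  field_simp

lemma cf_discriminant_mul_exp_tendsto (y : X) :
    Tendsto (fun z : ℍ => ModularForm.discriminant z * Complex.exp (-(cfExpo τ y) * z))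
      atImInfty (𝓝 0) := by
  have h1 := cf_tendsto_exp_twist' (cfIdx_lt τ y)
  have h2 := ModularForm.tendsto_atImInfty_tprod_one_sub_eta_q_pow
  have h3 := h1.mul h2
  rw [zero_mul] at h3
  refine h3.congr fun z => ?_
  rw [ModularForm.discriminant_eq_q_prod]
  have : Function.Periodic.qParam 1 (z : ℂ) * Complex.exp (-(cfExpo τ y) * z) =
      Complex.exp ((2 * π * I - 2 * π * I * (cfIdx τ y : ℕ) / (cfPeriod τ y : ℕ)) * z) := by
    unfold Function.Periodic.qParam cfExpo
    rw [← Complex.exp_add]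
    congr 1
    push_cast
    ring
  rw [← this]
  ring

/-- (∞4) -/
lemma cf_inv_tendsto (f : X → CuspFamily τ)
    (h : Matrix.det (Matrix.of fun j y => cfLin τ (f j) y) ≠ 0) (x j : X) :
    Tendsto (fun z : ℍ => ModularForm.discriminant z *
        (Matrix.of fun j x => (f j).1 x z : Matrix X X ℂ)⁻¹ x j) atImInfty (𝓝 0) := by
  have hinv := cfAmat_inv_tendsto τ f h
  have hentry : ∀ y : X, Tendsto (fun z => (cfAmat τ f z)⁻¹ y j) atImInfty
      (𝓝 ((cfLmat τ f)⁻¹ y j)) := fun y =>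
    tendsto_pi_nhds.mp (tendsto_pi_nhds.mp hinv y) j
  have hsum : Tendsto (fun z : ℍ => ∑ y, cfD τ x y *
      ((ModularForm.discriminant z * Complex.exp (-(cfExpo τ y) * z)) * (cfAmat τ f z)⁻¹ y j))
      atImInfty (𝓝 (∑ y, cfD τ x y * (0 * (cfLmat τ f)⁻¹ y j))) :=
    tendsto_finsetSum _ fun y _ =>
      (((cf_discriminant_mul_exp_tendsto τ y).mul (hentry y)).const_mul _)
  simp only [zero_mul, mul_zero, Finset.sum_const_zero] at hsum
  refine hsum.congr fun z => ?_
  have hM : (Matrix.of fun j x => (f j).1 x z : Matrix X X ℂ) = cfM τ f z := rfl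
  rw [hM, cfM_inv, Matrix.mul_apply, Finset.mul_sum]
  refine Finset.sum_congr rfl fun y _ => ?_
  rw [cfE', Matrix.mul_diagonal]
  ring

end Proof

theorem exists_leadingCoeff (τ : Equiv.Perm X) :
    ∃ (L : CuspFamily τ →ₗ[ℂ] (X → ℂ)) (C : ℂ), C ≠ 0 ∧
      -- (∞1) vanishing leading coefficients ⇒ `O(q)`
      (∀ f : CuspFamily τ, L f = 0 →
        ∀ x, (f.1 x) =O[atImInfty] (fun z : ℍ => Complex.exp (2 * π * I * z))) ∧
      -- (∞2) multiplication by a `1`-periodic function with a limit at `i∞`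
      (∀ (f Pf : CuspFamily τ) (P : ℍ → ℂ) (p : ℂ), Tendsto P atImInfty (𝓝 p) →
        (∀ x, Pf.1 x = P * f.1 x) → L Pf = p • L f) ∧
      -- (∞3) asymptotics of the determinant
      (∀ f : X → CuspFamily τ,
        Tendsto (fun z : ℍ => (Matrix.det (Matrix.of fun j x => (f j).1 x z)) ^ 2 *
            Complex.exp (-(2 * π * I * ((Fintype.card X : ℂ) - (numOrbits τ : ℂ))) * z))
          atImInfty (𝓝 (C * (Matrix.det (Matrix.of fun j y => L (f j) y)) ^ 2))) ∧
      -- (∞4) decay of `Δ • (matrix)⁻¹`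
      (∀ f : X → CuspFamily τ, Matrix.det (Matrix.of fun j y => L (f j) y) ≠ 0 →
        ∀ x j, Tendsto (fun z : ℍ => ModularForm.discriminant z *
            (Matrix.of fun j x => (f j).1 x z : Matrix X X ℂ)⁻¹ x j) atImInfty (𝓝 0)) := by
  refine ⟨cfLin τ, (cfD' τ).det ^ 2, pow_ne_zero 2 (cfD'_det_ne_zero τ), ?_, ?_, ?_, ?_⟩
  · exact fun f hf x => cf_isBigO_of_cfLin_eq_zero τ f hf x
  · exact fun f Pf P p hP hPf => cfLin_mul τ f Pf P p hP hPf
  · exact fun f => cf_det_tendsto τ f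
  · exact fun f hf x j => cf_inv_tendsto τ f hf x j

end Fermat.Agent.S20
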