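/-
S20 core (G5): the cusps; sum of the generator weights.
Notation: `X = CosetX N = SL(2,ℤ) ⧸ Γ₀(N)`, `n = |X|`, `tr N k f x` = translate of `f` (Basics.lean),
`(tr N k f x) ∣[k] g = tr N k f (g⁻¹ • x)` (`IsMF.tr_slash`).
`famOf`, `numOrbits_permT` are in `GensCusp/Fam.lean`, `evalMatrix` in `GensCusp/EvalMatrix.lean`,
the nonvanishing of the leading-coefficient determinant in `GensCusp/LeadDet.lean`, the weight computation in
`GensCusp/Weight.lean`.
-/
import Fermat.Agent.S20.GensCusp.Fam
import Fermat.Agent.S20.GensCusp.EvalMatrix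
import Fermat.Agent.S20.GensCusp.LeadDet
import Fermat.Agent.S20.GensCusp.Weight

set_option autoImplicit false
set_option linter.unusedSectionVars false

namespace Fermat.Agent.S20

open UpperHalfPlane hiding I
open ModularForm CongruenceSubgroup Filter Topology Complex
open scoped MatrixGroups ModularForm Manifold Real

local notation "Δ" => ModularForm.discriminant

namespace Gens

variable {N : ℕ} [NeZero N] (𝔊 : Gens N)

/-! ### (G5) the cusps: sum of the weights -/

/-- decay of `Δ • (evalMatrix)⁻¹` at `i∞` (from (∞4) of `exists_leadingCoeff` and the nonvanishing of the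
leading-coefficient determinant). -/
lemma tendsto_discriminant_mul_inv [Fintype (CosetX N)] [DecidableEq (CosetX N)]
    (e : CosetX N ≃ 𝔊.J) (x i : CosetX N) :
    Tendsto (fun z : ℍ => ModularForm.discriminant z * (𝔊.evalMatrix e z)⁻¹ x i) atImInfty (𝓝 0) := by
  obtain ⟨L, C, -, h1, h2, -, h4⟩ := exists_leadingCoeff (permT N)
  have hdet := 𝔊.det_leadingCoeff_ne_zero L h1 h2 e
  exact h4 (fun i => famOf (𝔊.isMF (e i))) hdet x i

/-- `∑_j κ_j = 6 (n - c)`. See the blueprint: the leading-coefficient matrix of the generators is nonsingular (same argument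
as (G2) with `φ = Δ`, using (∞1), (∞2) of `exists_leadingCoeff` and division by `Δ`), so by (∞3)
`(det A)² / Δ^{n-c}` is a level-one form of weight `2 ∑ κ_j - 12 (n - c)` with no zeros (by `linearIndependent_vec`) and
nonzero limit at `i∞`; its inverse is a level-one form as well, hence the weight is `0`. -/
lemma sum_κ : ∑ᶠ j, 𝔊.κ j = 6 * ((Nat.card (CosetX N) : ℤ) - (ModularCurve.cuspCount N : ℤ)) := by
  classical
  have _hJ : Finite 𝔊.J := 𝔊.finite_J
  let _instX : Fintype (CosetX N) := Fintype.ofFinite _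
  obtain ⟨e⟩ : Nonempty (CosetX N ≃ 𝔊.J) := Finite.card_eq.mp 𝔊.card_J.symm
  obtain ⟨L, C, hC, h1, h2, h3, -⟩ := exists_leadingCoeff (permT N)
  have hdet := 𝔊.det_leadingCoeff_ne_zero L h1 h2 e
  have hlim := h3 (fun i => famOf (𝔊.isMF (e i)))
  have hsum := 𝔊.sum_κ_of_tendsto e (mul_ne_zero hC (pow_ne_zero 2 hdet)) hlim
  rw [← finsum_comp_equiv e, finsum_eq_sum_of_fintype, hsum, numOrbits_permT,
    Nat.card_eq_fintype_card]

end Gens

end Fermat.Agent.S20
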