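/-
S20 core (G6): duality; dim S_2 = number of generators of weight 10.
Both lemmas are proved (helper24); the argument is in `GensDual/Core.lean` (with the decay of `Δ · A⁻¹` at `i∞`
as a hypothesis), and the decay is `Gens.tendsto_discriminant_mul_inv` (GensCusp.lean).
Notation: `X = CosetX N = SL(2,ℤ) ⧸ Γ₀(N)`, `n = |X|`, `tr N k f x` = translate of `f` (Basics.lean),
`(tr N k f x) ∣[k] g = tr N k f (g⁻¹ • x)` (`IsMF.tr_slash`).
-/
import Fermat.Agent.S20.GensCusp
import Fermat.Agent.S20.GensDual.Core

set_option autoImplicit false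
set_option linter.unusedSectionVars false
set_option linter.style.haveILetI false

namespace Fermat.Agent.S20

open UpperHalfPlane hiding I
open ModularForm CongruenceSubgroup Filter Topology Complex
open scoped MatrixGroups ModularForm Manifold Real

local notation "Δ" => ModularForm.discriminant

namespace Gens

variable {N : ℕ} [NeZero N] (𝔊 : Gens N)

/-! ### (G6) duality -/

/-- a bijection between the cosets and the generators (from `card_J`). -/
lemma nonempty_equiv_J : Nonempty (CosetX N ≃ 𝔊.J) := by
  haveI := 𝔊.finite_J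
  exact Finite.card_eq.mp 𝔊.card_J.symm

lemma κ_le_ten (j : 𝔊.J) : 𝔊.κ j ≤ 10 := by
  classical
  letI : Fintype (CosetX N) := Fintype.ofFinite _
  obtain ⟨e⟩ := 𝔊.nonempty_equiv_J
  exact GensDualAux.κ_le_ten_aux 𝔊 e (fun x i => 𝔊.tendsto_discriminant_mul_inv e x i) j

lemma finrank_cuspForm_two :
    Module.finrank ℂ (CuspForm (Gamma0 N) 2) = Nat.card {j : 𝔊.J // 𝔊.κ j = 10} := by
  classical
  letI : Fintype (CosetX N) := Fintype.ofFinite _
  obtain ⟨e⟩ := 𝔊.nonempty_equiv_J
  exact GensDualAux.finrank_aux 𝔊 e (fun x i => 𝔊.tendsto_discriminant_mul_inv e x i)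

end Gens

end Fermat.Agent.S20
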