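/-
S20 core (G7): the count.  All generator weights lie in `{0,2,4,6,8,10}` (`κ_nonneg`, `κ_even`, `κ_le_ten`);
with `m a := #{j : κ j = a}` the facts `card_J`, `card_weight_zero`, `two_mul_card_four_dvd`, `three_mul_card_six_dvd`,
`three_mul_card_mod_six_two`, `three_mul_card_mod_six_four`, `sum_κ` are six linear equations which give
`12 m 10 = 12 + n - 3 ν₂ - 4 ν₃ - 6 c`.
-/
import Fermat.Agent.S20.GensCount
import Fermat.Agent.S20.GensDual

set_option autoImplicit false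
set_option linter.unusedSectionVars false

namespace Fermat.Agent.S20

open UpperHalfPlane hiding I
open ModularForm CongruenceSubgroup Filter Topology Complex
open scoped MatrixGroups ModularForm Manifold Real

namespace Gens

variable {N : ℕ} [NeZero N] (𝔊 : Gens N)

/-- `Nat.card` of a subtype of a fintype as an integer sum of indicators. -/
lemma natCard_subtype_eq_sum {J : Type} [Fintype J] (P : J → Prop) [DecidablePred P] :
    (Nat.card {j : J // P j} : ℤ) = ∑ j : J, (if P j then (1 : ℤ) else 0) := by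
  rw [Nat.card_eq_fintype_card, Fintype.card_subtype, Finset.card_filter]
  push_cast
  rfl

/-- the pointwise identity behind the count. -/
lemma count_pointwise (k : ℤ) (h0 : 0 ≤ k) (he : Even k) (h10 : k ≤ 10) :
    12 * (if k = 10 then (1 : ℤ) else 0) =
      12 * (if k = 0 then (1 : ℤ) else 0) - 6 * (if (4 : ℤ) ∣ k then (1 : ℤ) else 0)
        - 6 * (if (6 : ℤ) ∣ k then (1 : ℤ) else 0) + k
        - 2 * (if k % 6 = 2 then (1 : ℤ) else 0) + 2 * (if k % 6 = 4 then (1 : ℤ) else 0) := by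
  obtain ⟨r, hr⟩ := he
  have hr0 : 0 ≤ r := by omega
  have hr5 : r ≤ 5 := by omega
  interval_cases r <;> subst hr <;> norm_num

lemma twelve_mul_card_weight_ten :
    12 * (Nat.card {j : 𝔊.J // 𝔊.κ j = 10} : ℤ) =
      12 + (Nat.card (CosetX N) : ℤ) - 3 * (ModularCurve.nuTwo N : ℤ)
        - 4 * (ModularCurve.nuThree N : ℤ) - 6 * (ModularCurve.cuspCount N : ℤ) := by
  classical
  have : Finite 𝔊.J := 𝔊.finite_J
  let _ : Fintype 𝔊.J := Fintype.ofFinite 𝔊.J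
  -- the input equations, as integer identities on indicator sums
  have hJ : (∑ _j : 𝔊.J, (1 : ℤ)) = (Nat.card (CosetX N) : ℤ) := by
    rw [← 𝔊.card_J, Nat.card_eq_fintype_card]
    simp
  have hZ : (∑ j : 𝔊.J, (if 𝔊.κ j = 0 then (1 : ℤ) else 0)) = 1 := by
    rw [← natCard_subtype_eq_sum, 𝔊.card_weight_zero]
    rfl
  have hF : 2 * (∑ j : 𝔊.J, (if (4 : ℤ) ∣ 𝔊.κ j then (1 : ℤ) else 0)) =
      (Nat.card (CosetX N) : ℤ) + (ModularCurve.nuTwo N : ℤ) := by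
    rw [← natCard_subtype_eq_sum]
    exact_mod_cast 𝔊.two_mul_card_four_dvd
  have hS : 3 * (∑ j : 𝔊.J, (if (6 : ℤ) ∣ 𝔊.κ j then (1 : ℤ) else 0)) =
      (Nat.card (CosetX N) : ℤ) + 2 * (ModularCurve.nuThree N : ℤ) := by
    rw [← natCard_subtype_eq_sum]
    exact_mod_cast 𝔊.three_mul_card_six_dvd
  have hP : 3 * (∑ j : 𝔊.J, (if 𝔊.κ j % 6 = 2 then (1 : ℤ) else 0)) +
      (ModularCurve.nuThree N : ℤ) = (Nat.card (CosetX N) : ℤ) := by
    rw [← natCard_subtype_eq_sum]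
    exact_mod_cast 𝔊.three_mul_card_mod_six_two
  have hQ : 3 * (∑ j : 𝔊.J, (if 𝔊.κ j % 6 = 4 then (1 : ℤ) else 0)) +
      (ModularCurve.nuThree N : ℤ) = (Nat.card (CosetX N) : ℤ) := by
    rw [← natCard_subtype_eq_sum]
    exact_mod_cast 𝔊.three_mul_card_mod_six_four
  have hK : (∑ j : 𝔊.J, 𝔊.κ j) =
      6 * ((Nat.card (CosetX N) : ℤ) - (ModularCurve.cuspCount N : ℤ)) := by
    rw [← finsum_eq_sum_of_fintype]
    exact 𝔊.sum_κ
  -- sum the pointwise identity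
  have hsum : 12 * (∑ j : 𝔊.J, (if 𝔊.κ j = 10 then (1 : ℤ) else 0)) =
      12 * (∑ j : 𝔊.J, (if 𝔊.κ j = 0 then (1 : ℤ) else 0))
        - 6 * (∑ j : 𝔊.J, (if (4 : ℤ) ∣ 𝔊.κ j then (1 : ℤ) else 0))
        - 6 * (∑ j : 𝔊.J, (if (6 : ℤ) ∣ 𝔊.κ j then (1 : ℤ) else 0))
        + (∑ j : 𝔊.J, 𝔊.κ j)
        - 2 * (∑ j : 𝔊.J, (if 𝔊.κ j % 6 = 2 then (1 : ℤ) else 0))
        + 2 * (∑ j : 𝔊.J, (if 𝔊.κ j % 6 = 4 then (1 : ℤ) else 0)) := by
    simp only [Finset.mul_sum, ← Finset.sum_sub_distrib, ← Finset.sum_add_distrib]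
    refine Finset.sum_congr rfl fun j _ => ?_
    exact count_pointwise (𝔊.κ j) (𝔊.κ_nonneg j) (𝔊.κ_even j) (𝔊.κ_le_ten j)
  rw [natCard_subtype_eq_sum, hsum]
  generalize (∑ j : 𝔊.J, (if 𝔊.κ j = 0 then (1 : ℤ) else 0)) = z at hZ ⊢
  generalize (∑ j : 𝔊.J, (if (4 : ℤ) ∣ 𝔊.κ j then (1 : ℤ) else 0)) = f at hF ⊢
  generalize (∑ j : 𝔊.J, (if (6 : ℤ) ∣ 𝔊.κ j then (1 : ℤ) else 0)) = s at hS ⊢
  generalize (∑ j : 𝔊.J, (if 𝔊.κ j % 6 = 2 then (1 : ℤ) else 0)) = u at hP ⊢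
  generalize (∑ j : 𝔊.J, (if 𝔊.κ j % 6 = 4 then (1 : ℤ) else 0)) = v at hQ ⊢
  generalize (∑ j : 𝔊.J, 𝔊.κ j) = w at hK ⊢
  omega

end Gens

end Fermat.Agent.S20
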